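import Mathlib

/-!
# MOONSHOT S19, node (GB): integral Galois bases from a finite orbit (helper5)

`Ω` a field with an action of a group `G` by ring automorphisms, `ζ : Ω` with finite `G`-orbit `Z`
(`O : OrbitData G Ω`).  Put `d = #Z`, `q_z = ∏_{w ∈ Z, w ≠ z} (X - w)` (`cofactor Z z`),
`b i = ζ ^ i` and `bd i = coeff_i (q_ζ) / q_ζ(ζ)` (`i < d`).  Lagrange/Euler interpolation gives

* `OrbitData.sum_pow_mul_smul_bd` : `∑ i < d, ζ ^ i * g • bd i = if g • ζ = ζ then 1 else 0`;
* `OrbitData.eq_sum_tr_mul_pow` : every `x` fixed by the stabiliser of `ζ` is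
  `∑ i < d, tr (bd i * x) * ζ ^ i`, where `tr y = ∑_{z ∈ Z} γ_z • y` (`γ_z • ζ = z`) is `G`-fixed;
* integrality: if `P` is a `G`-stable subring containing `ζ` and `q_ζ(ζ)⁻¹`, then `bd i ∈ P` and
  `tr` preserves `P`.

Mathlib only.
-/

set_option autoImplicit false
set_option linter.unusedSectionVars false

namespace Fermat.Agent.FF2.Base

open Polynomial

section Cofactor

variable {Ω : Type*} [Field Ω] [DecidableEq Ω]

/-- `q_z = ∏_{w ∈ Z, w ≠ z} (X - w)`. -/
noncomputable def cofactor (Z : Finset Ω) (z : Ω) : Polynomial Ω := ∏ w ∈ Z.erase z, (X - C w)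

theorem natDegree_cofactor (Z : Finset Ω) {z : Ω} (hz : z ∈ Z) :
    (cofactor Z z).natDegree = Z.card - 1 := by
  unfold cofactor
  rw [natDegree_finsetProd_X_sub_C_eq_card, Finset.card_erase_of_mem hz]

theorem eval_cofactor_self_ne_zero (Z : Finset Ω) (z : Ω) : (cofactor Z z).eval z ≠ 0 := by
  unfold cofactor
  rw [eval_prod, Finset.prod_ne_zero_iff]
  intro w hw
  rw [eval_sub, eval_X, eval_C, sub_ne_zero]
  exact (Finset.ne_of_mem_erase hw).symm

theorem eval_cofactor_of_ne (Z : Finset Ω) {z w : Ω} (hw : w ∈ Z) (hwz : w ≠ z) :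
    (cofactor Z z).eval w = 0 := by
  unfold cofactor
  rw [eval_prod]
  exact Finset.prod_eq_zero (Finset.mem_erase.mpr ⟨hwz, hw⟩) (by rw [eval_sub, eval_X, eval_C,
    sub_self])

theorem eval_cofactor_eq_sum (Z : Finset Ω) {z : Ω} (hz : z ∈ Z) (x : Ω) :
    (cofactor Z z).eval x = ∑ i ∈ Finset.range Z.card, (cofactor Z z).coeff i * x ^ i := by
  refine eval_eq_sum_range' ?_ x
  rw [natDegree_cofactor Z hz]
  exact Nat.sub_lt (Finset.card_pos.mpr ⟨z, hz⟩) one_pos

end Cofactor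

section Action

variable {Ω : Type*} [Field Ω] [DecidableEq Ω] {G : Type*} [Group G] [MulSemiringAction G Ω]

theorem map_cofactor (Z : Finset Ω) (g : G) (hZ : ∀ z ∈ Z, g • z ∈ Z) (z : Ω) :
    (cofactor Z z).map (MulSemiringAction.toRingHom G Ω g) = cofactor Z (g • z) := by
  have hinj : Function.Injective (fun w : Ω => g • w) := MulAction.injective g
  have himage : Z.image (fun w : Ω => g • w) = Z :=
    Finset.eq_of_subset_of_card_le (Finset.image_subset_iff.mpr hZ)
      (by rw [Finset.card_image_of_injective _ hinj])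
  have h2 : (Z.erase z).image (fun w : Ω => g • w) = Z.erase (g • z) := by
    rw [Finset.image_erase hinj, himage]
  unfold cofactor
  rw [Polynomial.map_prod, ← h2, Finset.prod_image (fun a _ b _ h => hinj h)]
  refine Finset.prod_congr rfl fun w _ => ?_
  rw [Polynomial.map_sub, map_X, map_C]
  rfl

end Action

/-- A finite orbit `Z = G • ζ` of a group acting on a field by ring automorphisms. -/
structure OrbitData (G Ω : Type*) [Field Ω] [Group G] [MulSemiringAction G Ω] where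
  /-- the orbit -/
  Z : Finset Ω
  /-- the base point -/
  ζ : Ω
  mem : ζ ∈ Z
  stable : ∀ g : G, ∀ z ∈ Z, g • z ∈ Z
  trans : ∀ z ∈ Z, ∃ g : G, g • ζ = z

namespace OrbitData

variable {Ω : Type*} [Field Ω] [DecidableEq Ω] {G : Type*} [Group G] [MulSemiringAction G Ω]
variable (O : OrbitData G Ω)

/-- The degree `d = #Z`. -/
def d : ℕ := O.Z.card

theorem smul_mem (g : G) : g • O.ζ ∈ O.Z := O.stable g O.ζ O.mem

/-- The dual elements `bd i = coeff_i (q_ζ) / q_ζ(ζ)`. -/
noncomputable def bd (i : ℕ) : Ω := (cofactor O.Z O.ζ).coeff i / (cofactor O.Z O.ζ).eval O.ζ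

theorem smul_eval_cofactor (g : G) (z : Ω) :
    g • (cofactor O.Z z).eval z = (cofactor O.Z (g • z)).eval (g • z) := by
  rw [← map_cofactor O.Z g (O.stable g)]
  exact (Polynomial.eval_map_apply (MulSemiringAction.toRingHom G Ω g) z).symm ▸ rfl

theorem smul_coeff_cofactor (g : G) (z : Ω) (i : ℕ) :
    g • (cofactor O.Z z).coeff i = (cofactor O.Z (g • z)).coeff i := by
  rw [← map_cofactor O.Z g (O.stable g), coeff_map]
  rfl

theorem smul_bd (g : G) (i : ℕ) :
    g • O.bd i = (cofactor O.Z (g • O.ζ)).coeff i / (cofactor O.Z (g • O.ζ)).eval (g • O.ζ) := by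
  unfold bd
  rw [smul_div₀', O.smul_coeff_cofactor, O.smul_eval_cofactor]

/-- Elements of the stabiliser of `ζ` fix the `bd i`. -/
theorem smul_bd_of_fix {g : G} (hg : g • O.ζ = O.ζ) (i : ℕ) : g • O.bd i = O.bd i := by
  rw [O.smul_bd, hg]
  rfl

/-- **The Galois basis identity.** -/
theorem sum_pow_mul_smul_bd (g : G) :
    ∑ i ∈ Finset.range O.d, O.ζ ^ i * g • O.bd i = if g • O.ζ = O.ζ then 1 else 0 := by
  have h1 : ∑ i ∈ Finset.range O.d, O.ζ ^ i * g • O.bd i =
      (cofactor O.Z (g • O.ζ)).eval O.ζ / (cofactor O.Z (g • O.ζ)).eval (g • O.ζ) := by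
    rw [eval_cofactor_eq_sum O.Z (O.smul_mem g), Finset.sum_div]
    refine Finset.sum_congr rfl fun i _ => ?_
    rw [O.smul_bd]
    ring
  rw [h1]
  split_ifs with h
  · rw [h]
    exact div_self (eval_cofactor_self_ne_zero _ _)
  · rw [eval_cofactor_of_ne O.Z O.mem (fun h' => h h'.symm), zero_div]

/-! ### The trace -/

open Classical in
/-- A group element sending `ζ` to `z` (for `z` in the orbit). -/
noncomputable def rep (z : Ω) : G :=
  if h : ∃ g : G, g • O.ζ = z then h.choose else 1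

theorem rep_smul {z : Ω} (hz : z ∈ O.Z) : O.rep z • O.ζ = z := by
  unfold rep
  rw [dif_pos (O.trans z hz)]
  exact (O.trans z hz).choose_spec

/-- `y` is fixed by the stabiliser of `ζ`. -/
def IsFix (y : Ω) : Prop := ∀ g : G, g • O.ζ = O.ζ → g • y = y

theorem IsFix.mul {x y : Ω} (hx : O.IsFix x) (hy : O.IsFix y) : O.IsFix (x * y) := fun g hg => by
  rw [smul_mul', hx g hg, hy g hg]

theorem isFix_bd (i : ℕ) : O.IsFix (O.bd i) := fun _ hg => O.smul_bd_of_fix hg i

theorem isFix_zeta : O.IsFix O.ζ := fun _ hg => hg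

theorem IsFix.smul_eq {y : Ω} (hy : O.IsFix y) {g g' : G} (h : g • O.ζ = g' • O.ζ) :
    g • y = g' • y := by
  have h1 : (g'⁻¹ * g) • O.ζ = O.ζ := by rw [mul_smul, h, inv_smul_smul]
  have h2 := hy _ h1
  rw [mul_smul] at h2
  have h3 := congrArg (fun t => g' • t) h2
  simp only [smul_inv_smul] at h3
  exact h3

theorem IsFix.smul_eq_rep {y : Ω} (hy : O.IsFix y) (g : G) : g • y = O.rep (g • O.ζ) • y :=
  hy.smul_eq O (O.rep_smul (O.smul_mem g)).symm

/-- The trace `tr y = ∑_{z ∈ Z} γ_z • y`. -/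
noncomputable def tr (y : Ω) : Ω := ∑ z ∈ O.Z, O.rep z • y

/-- The trace of an element fixed by the stabiliser of `ζ` is fixed by `G`. -/
theorem IsFix.smul_tr {y : Ω} (hy : O.IsFix y) (g : G) : g • O.tr y = O.tr y := by
  unfold tr
  rw [Finset.smul_sum]
  have hinj : Function.Injective (fun w : Ω => g • w) := MulAction.injective g
  have himage : O.Z.image (fun w : Ω => g • w) = O.Z :=
    Finset.eq_of_subset_of_card_le (Finset.image_subset_iff.mpr (O.stable g))
      (by rw [Finset.card_image_of_injective _ hinj])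
  conv_rhs => rw [← himage, Finset.sum_image (fun a _ b _ h => hinj h)]
  refine Finset.sum_congr rfl fun z hz => ?_
  rw [← mul_smul]
  refine hy.smul_eq O ?_
  rw [mul_smul, O.rep_smul hz, O.rep_smul (O.stable g z hz)]

/-- **Expansion in the basis `ζ ^ i` with `G`-fixed coefficients.** -/
theorem IsFix.eq_sum_tr_mul_pow {x : Ω} (hx : O.IsFix x) :
    x = ∑ i ∈ Finset.range O.d, O.tr (O.bd i * x) * O.ζ ^ i := by
  have h1 : ∀ i, O.tr (O.bd i * x) * O.ζ ^ i =
      ∑ z ∈ O.Z, O.ζ ^ i * O.rep z • O.bd i * O.rep z • x := by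
    intro i
    unfold tr
    rw [Finset.sum_mul]
    refine Finset.sum_congr rfl fun z _ => ?_
    rw [smul_mul']
    ring
  simp_rw [h1]
  rw [Finset.sum_comm]
  have h2 : ∀ z ∈ O.Z, ∑ i ∈ Finset.range O.d, O.ζ ^ i * O.rep z • O.bd i * O.rep z • x =
      if z = O.ζ then x else 0 := by
    intro z hz
    rw [← Finset.sum_mul, O.sum_pow_mul_smul_bd, O.rep_smul hz]
    split_ifs with h
    · rw [one_mul]
      have h3 : O.rep z • O.ζ = (1 : G) • O.ζ := by rw [O.rep_smul hz, h, one_smul]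
      rw [hx.smul_eq O h3, one_smul]
    · rw [zero_mul]
  rw [Finset.sum_congr rfl h2, Finset.sum_ite_eq' O.Z O.ζ, if_pos O.mem]

/-! ### Integrality -/

section Integral

variable (P : Subring Ω)

theorem mem_of_mem_Z (hP : ∀ g : G, ∀ x ∈ P, g • x ∈ P) (hζ : O.ζ ∈ P) {z : Ω} (hz : z ∈ O.Z) :
    z ∈ P := by
  obtain ⟨g, rfl⟩ := O.trans z hz
  exact hP g _ hζ

theorem coeff_prod_X_sub_C_mem (s : Finset Ω) (hs : ∀ w ∈ s, w ∈ P) (i : ℕ) :
    (∏ w ∈ s, (X - C w)).coeff i ∈ P := by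
  induction s using Finset.induction_on generalizing i with
  | empty =>
    rw [Finset.prod_empty, coeff_one]
    split_ifs
    · exact P.one_mem
    · exact P.zero_mem
  | insert a s ha ih =>
    have hs' : ∀ w ∈ s, w ∈ P := fun w hw => hs w (Finset.mem_insert_of_mem hw)
    rw [Finset.prod_insert ha, sub_mul, coeff_sub, coeff_C_mul]
    refine P.sub_mem ?_ (P.mul_mem (hs a (Finset.mem_insert_self a s)) (ih hs' i))
    cases i with
    | zero =>
      rw [coeff_X_mul_zero]
      exact P.zero_mem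
    | succ n =>
      rw [coeff_X_mul]
      exact ih hs' n

theorem coeff_cofactor_mem (hP : ∀ g : G, ∀ x ∈ P, g • x ∈ P) (hζ : O.ζ ∈ P) (z : Ω) (i : ℕ) :
    (cofactor O.Z z).coeff i ∈ P :=
  coeff_prod_X_sub_C_mem P _
    (fun _ hw => O.mem_of_mem_Z P hP hζ (Finset.mem_of_mem_erase hw)) i

/-- The dual elements are integral when `q_ζ(ζ)` is a unit of `P`. -/
theorem bd_mem (hP : ∀ g : G, ∀ x ∈ P, g • x ∈ P) (hζ : O.ζ ∈ P)
    (hunit : ((cofactor O.Z O.ζ).eval O.ζ)⁻¹ ∈ P) (i : ℕ) : O.bd i ∈ P := by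
  unfold bd
  rw [div_eq_mul_inv]
  exact P.mul_mem (O.coeff_cofactor_mem P hP hζ _ i) hunit

theorem tr_mem (hP : ∀ g : G, ∀ x ∈ P, g • x ∈ P) {y : Ω} (hy : y ∈ P) : O.tr y ∈ P :=
  P.sum_mem fun _ _ => hP _ _ hy

end Integral

end OrbitData

/-- In a local domain in which `m` is a unit, distinct `m`-th roots of unity are not congruent
modulo the maximal ideal. -/
theorem isUnit_one_sub_of_pow_eq_one {R : Type*} [CommRing R] [IsDomain R] [IsLocalRing R]
    {u : R} {m : ℕ} (hu : u ^ m = 1) (hu1 : u ≠ 1) (hm : IsUnit (m : R)) : IsUnit (1 - u) := by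
  by_contra h
  have hmem : 1 - u ∈ IsLocalRing.maximalIdeal R := (IsLocalRing.mem_maximalIdeal _).mpr h
  have hsum : (∑ k ∈ Finset.range m, u ^ k) = 0 := by
    have h1 : (∑ k ∈ Finset.range m, u ^ k) * (u - 1) = 0 := by rw [geom_sum_mul, hu, sub_self]
    rcases mul_eq_zero.mp h1 with h2 | h2
    · exact h2
    · exact absurd (sub_eq_zero.mp h2) hu1
  have hcong : (m : R) - ∑ k ∈ Finset.range m, u ^ k ∈ IsLocalRing.maximalIdeal R := by
    have h1 : (m : R) - ∑ k ∈ Finset.range m, u ^ k = ∑ k ∈ Finset.range m, (1 - u ^ k) := by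
      rw [Finset.sum_sub_distrib, Finset.sum_const, Finset.card_range, nsmul_eq_mul, mul_one]
    rw [h1]
    refine Ideal.sum_mem _ fun k _ => ?_
    rw [← geom_sum_mul_neg]
    exact Ideal.mul_mem_left _ _ hmem
  rw [hsum, sub_zero] at hcong
  exact (IsLocalRing.mem_maximalIdeal _).mp hcong hm

end Fermat.Agent.FF2.Base
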