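import Mathlib
import Fermat.Agent.TW.Hopf.DecompRing
import Fermat.Agent.S55.LocalImage
import Fermat.Agent.FF2.Desc.PadicPair

/-!
# MOONSHOT S19, node (BASE-1): the henselian base ring `Λ₁ = ℚ̄ ∩ ℤ_ℓ` (helper5)

`P = padicPlace ℓ` (the place of `ℚ̄` induced by the Prelude's `padicEmbedding ℓ`),
`D_P` its decomposition group, `Λ₁ = decompRing P` (main's `TW/Hopf/DecompRing`), `K₁` the
decomposition field.  Since the image of `G_{ℚ_ℓ}` lies in `D_P`, an element of `ℚ̄` fixed by `D_P`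
is sent into `ℚ_ℓ` by `padicEmbedding ℓ` (infinite Galois theory of `ℚ̄_ℓ/ℚ_ℓ`).  Hence
`Λ₁ = ℚ̄ ∩ ℤ_ℓ`, and

* `lam1ToPadicInt ℓ : Λ₁ →+* ℤ_[ℓ]` (injective);
* `exists_eq_natCast_add_pow_mul` : `Λ₁ = ℕ + ℓⁿ Λ₁`;
* **`lam1DensePair ℓ : DensePair (ratLocalizedAt ℓ) ℚ Λ₁ K₁ ℓ ℓ`** (helper17's structure), so the
  lattice descent `Λ₁ → ℤ_(ℓ)` runs inside `ℚ̄`.
-/

set_option autoImplicit false
set_option linter.unusedSectionVars false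
set_option linter.style.haveILetI false

namespace Fermat.Agent.FF2.Base

open Fermat.Agent.TW.Hopf.DecompRing Fermat.Agent.S55 Fermat.Agent.FF2.Desc GaloisRep

local notation "Qb" => AlgebraicClosure ℚ
local notation "GQ" => (AlgebraicClosure ℚ ≃ₐ[ℚ] AlgebraicClosure ℚ)

variable (ℓ : ℕ) [hℓ : Fact ℓ.Prime]

/-- The decomposition group of `padicPlace ℓ`. -/
noncomputable abbrev DP : Subgroup GQ := (padicPlace ℓ).decompositionSubgroup ℚ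

/-- The decomposition field of `padicPlace ℓ`. -/
noncomputable abbrev K1 : IntermediateField ℚ Qb := IntermediateField.fixedField (DP ℓ)

/-- The ring of integers of the decomposition field, `Λ₁ = ℚ̄ ∩ ℤ_ℓ`. -/
noncomputable abbrev Lam1 : Subring Qb := decompRing (padicPlace ℓ)

theorem mem_K1 {x : Qb} : x ∈ K1 ℓ ↔ ∀ σ ∈ DP ℓ, σ x = x := by
  constructor
  · intro h σ hσ
    exact h ⟨σ, hσ⟩
  · intro h σ
    exact h σ.1 σ.2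

theorem mem_Lam1 {x : Qb} : x ∈ Lam1 ℓ ↔ x ∈ padicPlace ℓ ∧ x ∈ K1 ℓ := by
  rw [mem_K1]
  exact Iff.rfl

/-- An element of `ℚ̄` fixed by `D_P` is `ℓ`-adically rational. -/
theorem exists_padic_eq_of_mem_K1 {x : Qb} (hx : x ∈ K1 ℓ) :
    ∃ y : ℚ_[ℓ], algebraMap ℚ_[ℓ] (PadicAlgCl ℓ) y = padicEmbedding ℓ x := by
  haveI : IsAlgClosure ℚ_[ℓ] (PadicAlgCl ℓ) := AlgebraicClosure.instIsAlgClosure ℚ_[ℓ]
  haveI : IsGalois ℚ_[ℓ] (PadicAlgCl ℓ) := inferInstance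
  refine (InfiniteGalois.mem_range_algebraMap_iff_fixed (k := ℚ_[ℓ]) (K := PadicAlgCl ℓ) _).mpr
    fun τ => ?_
  rw [← padicEmbedding_localGaloisToGlobal,
    (mem_K1 ℓ).mp hx _ (localGaloisToGlobal_mem_decompositionSubgroup ℓ τ)]

/-- The `ℓ`-adic number attached to an element of the decomposition field. -/
noncomputable def k1ToPadicFun (x : K1 ℓ) : ℚ_[ℓ] := (exists_padic_eq_of_mem_K1 ℓ x.2).choose

theorem algebraMap_k1ToPadicFun (x : K1 ℓ) :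
    algebraMap ℚ_[ℓ] (PadicAlgCl ℓ) (k1ToPadicFun ℓ x) = padicEmbedding ℓ (x : Qb) :=
  (exists_padic_eq_of_mem_K1 ℓ x.2).choose_spec

theorem k1ToPadicFun_eq_iff (x : K1 ℓ) (y : ℚ_[ℓ]) :
    k1ToPadicFun ℓ x = y ↔ padicEmbedding ℓ (x : Qb) = algebraMap ℚ_[ℓ] (PadicAlgCl ℓ) y := by
  rw [← algebraMap_k1ToPadicFun]
  exact ⟨fun h => by rw [h], fun h => (algebraMap ℚ_[ℓ] (PadicAlgCl ℓ)).injective h⟩

/-- The embedding of the decomposition field into `ℚ_ℓ`. -/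
noncomputable def k1ToPadic : K1 ℓ →+* ℚ_[ℓ] where
  toFun := k1ToPadicFun ℓ
  map_one' := by
    rw [k1ToPadicFun_eq_iff]
    simp
  map_mul' x y := by
    rw [k1ToPadicFun_eq_iff, map_mul, algebraMap_k1ToPadicFun, algebraMap_k1ToPadicFun]
    simp
  map_zero' := by
    rw [k1ToPadicFun_eq_iff]
    simp
  map_add' x y := by
    rw [k1ToPadicFun_eq_iff, map_add, algebraMap_k1ToPadicFun, algebraMap_k1ToPadicFun]
    simp

theorem algebraMap_k1ToPadic (x : K1 ℓ) :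
    algebraMap ℚ_[ℓ] (PadicAlgCl ℓ) (k1ToPadic ℓ x) = padicEmbedding ℓ (x : Qb) :=
  algebraMap_k1ToPadicFun ℓ x

theorem k1ToPadic_injective : Function.Injective (k1ToPadic ℓ) := (k1ToPadic ℓ).injective

theorem norm_k1ToPadic (x : K1 ℓ) : ‖k1ToPadic ℓ x‖ = padicAbs ℓ (x : Qb) := by
  rw [padicAbs_apply, ← algebraMap_k1ToPadic, PadicAlgCl.norm_extends]

theorem k1ToPadic_ratCast (q : ℚ) : k1ToPadic ℓ (algebraMap ℚ (K1 ℓ) q) = (q : ℚ_[ℓ]) := by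
  rw [eq_ratCast, map_ratCast]

/-! ### The ring `Λ₁` -/

theorem lam1_le_K1 {x : Qb} (hx : x ∈ Lam1 ℓ) : x ∈ K1 ℓ := ((mem_Lam1 ℓ).mp hx).2

/-- The inclusion `Λ₁ ⊆ K₁`. -/
noncomputable def lam1ToK1 : Lam1 ℓ →+* K1 ℓ where
  toFun x := ⟨x.1, lam1_le_K1 ℓ x.2⟩
  map_one' := rfl
  map_mul' _ _ := rfl
  map_zero' := rfl
  map_add' _ _ := rfl

@[simp] theorem coe_lam1ToK1 (x : Lam1 ℓ) : ((lam1ToK1 ℓ x : K1 ℓ) : Qb) = (x : Qb) := rfl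

noncomputable instance algebraLam1K1 : Algebra (Lam1 ℓ) (K1 ℓ) := (lam1ToK1 ℓ).toAlgebra

theorem algebraMap_lam1_K1 (x : Lam1 ℓ) : algebraMap (Lam1 ℓ) (K1 ℓ) x = lam1ToK1 ℓ x := rfl

instance towerLam1K1 : IsScalarTower (Lam1 ℓ) (K1 ℓ) Qb :=
  IsScalarTower.of_algebraMap_eq' rfl

theorem norm_k1ToPadic_le_one (x : Lam1 ℓ) : ‖k1ToPadic ℓ (lam1ToK1 ℓ x)‖ ≤ 1 := by
  rw [norm_k1ToPadic]
  exact (mem_padicPlace_iff_padicAbs ℓ).mp ((mem_Lam1 ℓ).mp x.2).1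

/-- The embedding `Λ₁ → ℤ_ℓ` (function). -/
noncomputable def lam1ToPadicIntFun (x : Lam1 ℓ) : ℤ_[ℓ] :=
  ⟨k1ToPadic ℓ (lam1ToK1 ℓ x), norm_k1ToPadic_le_one ℓ x⟩

theorem coe_lam1ToPadicIntFun (x : Lam1 ℓ) :
    ((lam1ToPadicIntFun ℓ x : ℤ_[ℓ]) : ℚ_[ℓ]) = k1ToPadic ℓ (lam1ToK1 ℓ x) := rfl

/-- The embedding `Λ₁ → ℤ_ℓ`. -/
noncomputable def lam1ToPadicInt : Lam1 ℓ →+* ℤ_[ℓ] where
  toFun := lam1ToPadicIntFun ℓ
  map_one' := by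
    apply PadicInt.ext
    rw [coe_lam1ToPadicIntFun, map_one, map_one, PadicInt.coe_one]
  map_mul' x y := by
    apply PadicInt.ext
    rw [PadicInt.coe_mul, coe_lam1ToPadicIntFun, coe_lam1ToPadicIntFun, coe_lam1ToPadicIntFun,
      map_mul, map_mul]
  map_zero' := by
    apply PadicInt.ext
    rw [coe_lam1ToPadicIntFun, map_zero, map_zero, PadicInt.coe_zero]
  map_add' x y := by
    apply PadicInt.ext
    rw [PadicInt.coe_add, coe_lam1ToPadicIntFun, coe_lam1ToPadicIntFun, coe_lam1ToPadicIntFun,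
      map_add, map_add]

@[simp] theorem coe_lam1ToPadicInt (x : Lam1 ℓ) :
    ((lam1ToPadicInt ℓ x : ℤ_[ℓ]) : ℚ_[ℓ]) = k1ToPadic ℓ (lam1ToK1 ℓ x) := rfl

theorem lam1ToPadicInt_injective : Function.Injective (lam1ToPadicInt ℓ) := by
  intro x y hxy
  have h1 := congrArg (fun t : ℤ_[ℓ] => (t : ℚ_[ℓ])) hxy
  simp only [coe_lam1ToPadicInt] at h1
  have h2 := k1ToPadic_injective ℓ h1
  exact Subtype.ext (congrArg (fun t : K1 ℓ => (t : Qb)) h2)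

/-- An element of `K₁` of absolute value `≤ 1` lies in `Λ₁`. -/
theorem mem_Lam1_of_norm_le_one {x : Qb} (hx : x ∈ K1 ℓ) (hn : padicAbs ℓ x ≤ 1) :
    x ∈ Lam1 ℓ :=
  (mem_Lam1 ℓ).mpr ⟨(mem_padicPlace_iff_padicAbs ℓ).mpr hn, hx⟩

theorem natCast_mem_K1 (n : ℕ) : (n : Qb) ∈ K1 ℓ := natCast_mem _ n

/-- **Density**: `Λ₁ = ℕ + ℓⁿ Λ₁`. -/
theorem exists_eq_natCast_add_pow_mul (x : Lam1 ℓ) (n : ℕ) :
    ∃ (r : ℕ) (y : Lam1 ℓ), x = (r : Lam1 ℓ) + (ℓ : Lam1 ℓ) ^ n * y := by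
  set z : ℤ_[ℓ] := lam1ToPadicInt ℓ x with hz
  have h := PadicInt.appr_spec n z
  rw [Ideal.mem_span_singleton] at h
  obtain ⟨w, hw⟩ := h
  have hℓ0 : (ℓ : Qb) ≠ 0 := by exact_mod_cast hℓ.out.ne_zero
  -- the candidate
  set y : Qb := ((x : Qb) - (z.appr n : Qb)) / (ℓ : Qb) ^ n with hy
  have hyK : y ∈ K1 ℓ := by
    refine div_mem (sub_mem (lam1_le_K1 ℓ x.2) (natCast_mem_K1 ℓ _)) (pow_mem (natCast_mem_K1 ℓ _) _)
  have hyn : padicAbs ℓ y ≤ 1 := by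
    have h1 : k1ToPadic ℓ ⟨y, hyK⟩ = (w : ℚ_[ℓ]) := by
      have hℓ1 : ((ℓ : ℚ_[ℓ])) ^ n ≠ 0 := pow_ne_zero _ (by exact_mod_cast hℓ.out.ne_zero)
      have h2 : (⟨y, hyK⟩ : K1 ℓ) * ((ℓ : K1 ℓ)) ^ n = lam1ToK1 ℓ x - ((z.appr n : ℕ) : K1 ℓ) := by
        apply Subtype.ext
        simp only [MulMemClass.coe_mul, SubmonoidClass.coe_pow, AddSubgroupClass.coe_sub,
          coe_lam1ToK1]
        rw [show (((ℓ : K1 ℓ)) : Qb) = (ℓ : Qb) from rfl,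
          show ((((z.appr n : ℕ) : K1 ℓ)) : Qb) = ((z.appr n : ℕ) : Qb) from rfl, hy]
        field_simp
      have h3 := congrArg (k1ToPadic ℓ) h2
      rw [map_mul, map_pow, map_sub, map_natCast, map_natCast] at h3
      have h4 : (k1ToPadic ℓ (lam1ToK1 ℓ x) : ℚ_[ℓ]) - ((z.appr n : ℕ) : ℚ_[ℓ]) =
          (ℓ : ℚ_[ℓ]) ^ n * (w : ℚ_[ℓ]) := by
        have := congrArg (fun t : ℤ_[ℓ] => (t : ℚ_[ℓ])) hw
        simpa [hz] using this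
      rw [h4, mul_comm] at h3
      exact mul_left_cancel₀ hℓ1 h3
    rw [← norm_k1ToPadic ℓ ⟨y, hyK⟩, h1]
    exact w.2
  refine ⟨z.appr n, ⟨y, mem_Lam1_of_norm_le_one ℓ hyK hyn⟩, Subtype.ext ?_⟩
  simp only [Subring.coe_add, Subring.coe_mul, Subring.coe_pow, Subring.coe_natCast]
  rw [hy]
  field_simp
  ring

/-! ### The dense pair -/

theorem padicAbs_ratCast (x : ℚ) : padicAbs ℓ (algebraMap ℚ Qb x) = ‖(x : ℚ_[ℓ])‖ := by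
  rw [padicAbs_apply, AlgHom.commutes, ← PadicAlgCl.norm_extends]
  congr 1

theorem ratCast_mem_K1 (x : ℚ) : algebraMap ℚ Qb x ∈ K1 ℓ := (K1 ℓ).algebraMap_mem x

theorem ratCast_mem_Lam1 {x : ℚ} (hx : x ∈ ratLocalizedAt ℓ) : algebraMap ℚ Qb x ∈ Lam1 ℓ :=
  mem_Lam1_of_norm_le_one ℓ (ratCast_mem_K1 ℓ x) (by
    rw [padicAbs_ratCast]
    exact norm_le_one_of_mem_ratLocalizedAt ℓ hx)

theorem padicAbs_natCast_lt_one : padicAbs ℓ (ℓ : Qb) < 1 := by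
  rw [padicAbs_natCast_self]
  exact inv_lt_one_of_one_lt₀ (by exact_mod_cast hℓ.out.one_lt)

theorem not_isUnit_natCast : ¬ IsUnit (ℓ : Lam1 ℓ) := by
  rintro ⟨u, hu⟩
  have h1 : (ℓ : Lam1 ℓ) * (↑u⁻¹ : Lam1 ℓ) = 1 := by rw [← hu]; exact u.mul_inv
  have h2 := congrArg (fun t : Lam1 ℓ => padicAbs ℓ (t : Qb)) h1
  simp only [Subring.coe_mul, Subring.coe_natCast, Subring.coe_one, map_mul, map_one] at h2
  have h3 : padicAbs ℓ ((↑u⁻¹ : Lam1 ℓ) : Qb) ≤ 1 :=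
    (mem_padicPlace_iff_padicAbs ℓ).mp ((mem_Lam1 ℓ).mp (↑u⁻¹ : Lam1 ℓ).2).1
  have h4 := padicAbs_natCast_lt_one ℓ
  have h5 : (0 : ℝ) ≤ padicAbs ℓ (ℓ : Qb) := (padicAbs ℓ).nonneg _
  nlinarith

/-- `ℓ` lies in the maximal ideal of `Λ₁`. -/
theorem natCast_mem_maximalIdeal : (ℓ : Lam1 ℓ) ∈ IsLocalRing.maximalIdeal (Lam1 ℓ) :=
  (IsLocalRing.mem_maximalIdeal _).mpr (not_isUnit_natCast ℓ)

/-- **The dense pair `ℤ_(ℓ) ⊂ ℚ`, `Λ₁ ⊂ K₁`** (inside `ℚ̄`). -/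
theorem lam1DensePair :
    DensePair (ratLocalizedAt ℓ) ℚ (Lam1 ℓ) (K1 ℓ) (ratLocP ℓ) (ℓ : Lam1 ℓ) where
  inj₁ := fun x y hxy => Subtype.ext (congrArg (fun t : K1 ℓ => (t : Qb)) hxy)
  hℓ := by
    apply Subtype.ext
    rw [show algebraMap (ratLocalizedAt ℓ) ℚ (ratLocP ℓ) = (ℓ : ℚ) from rfl, map_natCast,
      map_natCast]
  ℓ_ne := by
    rw [show algebraMap (ratLocalizedAt ℓ) ℚ (ratLocP ℓ) = (ℓ : ℚ) from rfl]
    exact_mod_cast hℓ.out.ne_zero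
  frac x := by
    obtain ⟨a, r, hr⟩ := exists_pow_mul_mem_ratLocalizedAt ℓ x
    exact ⟨a, r, hr⟩
  frac₁ x := by
    obtain ⟨a, ha⟩ := exists_pow_mul_norm_le_one ℓ (k1ToPadic ℓ x)
    have hmem : ((ℓ : Qb)) ^ a * (x : Qb) ∈ Lam1 ℓ := by
      refine mem_Lam1_of_norm_le_one ℓ (mul_mem (pow_mem (natCast_mem_K1 ℓ _) _) x.2) ?_
      have h1 : padicAbs ℓ (((ℓ : Qb)) ^ a * (x : Qb)) =
          ‖k1ToPadic ℓ (((ℓ : K1 ℓ)) ^ a * x)‖ := by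
        rw [norm_k1ToPadic]
        rfl
      rw [h1, map_mul, map_pow, map_natCast]
      exact ha
    refine ⟨a, ⟨_, hmem⟩, Subtype.ext ?_⟩
    rw [map_natCast]
    rfl
  le r := ⟨⟨algebraMap ℚ Qb (r : ℚ), ratCast_mem_Lam1 ℓ r.2⟩, Subtype.ext rfl⟩
  dense x n := by
    obtain ⟨r, y, hxy⟩ := exists_eq_natCast_add_pow_mul ℓ x n
    refine ⟨(r : ratLocalizedAt ℓ), y, ?_⟩
    rw [hxy, map_add, map_natCast, map_natCast, map_natCast]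
  inter x hx := by
    obtain ⟨z, hz⟩ := hx
    have h1 : algebraMap ℚ Qb x = (z : Qb) := (congrArg (fun t : K1 ℓ => (t : Qb)) hz).symm
    have h2 : ‖(x : ℚ_[ℓ])‖ ≤ 1 := by
      rw [← padicAbs_ratCast, h1]
      exact (mem_padicPlace_iff_padicAbs ℓ).mp ((mem_Lam1 ℓ).mp z.2).1
    exact ⟨⟨x, mem_ratLocalizedAt_of_norm_le_one ℓ h2⟩, rfl⟩
  rad := by
    rw [IsLocalRing.jacobson_eq_maximalIdeal ⊥ bot_ne_top]
    exact natCast_mem_maximalIdeal ℓ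

end Fermat.Agent.FF2.Base
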