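import Mathlib
import Fermat.Agent.FF2.Base.Lambda1

/-!
# MOONSHOT S19, node (BASE-1): `Λ₁ = ℚ̄ ∩ ℤ_ℓ` is a discrete valuation ring with uniformizer `ℓ`
(helper5)
-/

set_option autoImplicit false
set_option linter.unusedSectionVars false
set_option linter.style.haveILetI false
set_option linter.unusedSimpArgs false

namespace Fermat.Agent.FF2.Base

open Fermat.Agent.TW.Hopf.DecompRing Fermat.Agent.S55 Fermat.Agent.FF2.Desc GaloisRep

local notation "Qb" => AlgebraicClosure ℚ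
local notation "GQ" => (AlgebraicClosure ℚ ≃ₐ[ℚ] AlgebraicClosure ℚ)

variable (ℓ : ℕ) [hℓ : Fact ℓ.Prime]

theorem padicAbs_coe_lam1 (x : Lam1 ℓ) : padicAbs ℓ (x : Qb) = ‖lam1ToPadicInt ℓ x‖ := by
  rw [PadicInt.norm_def, coe_lam1ToPadicInt, norm_k1ToPadic]
  rfl

/-- An element of `Λ₁` of absolute value `1` is a unit. -/
theorem isUnit_of_padicAbs_eq_one {x : Lam1 ℓ} (hx : padicAbs ℓ (x : Qb) = 1) : IsUnit x := by
  have hx0 : (x : Qb) ≠ 0 := by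
    intro h
    rw [h, map_zero] at hx
    exact zero_ne_one hx
  have hinv : ((x : Qb))⁻¹ ∈ Lam1 ℓ := by
    refine mem_Lam1_of_norm_le_one ℓ (inv_mem (lam1_le_K1 ℓ x.2)) ?_
    rw [map_inv₀, hx, inv_one]
  exact IsUnit.of_mul_eq_one ⟨_, hinv⟩ (Subtype.ext (mul_inv_cancel₀ hx0))

theorem padicAbs_eq_one_of_isUnit {x : Lam1 ℓ} (hx : IsUnit x) : padicAbs ℓ (x : Qb) = 1 := by
  obtain ⟨u, rfl⟩ := hx
  have h1 : (u : Lam1 ℓ) * (↑u⁻¹ : Lam1 ℓ) = 1 := u.mul_inv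
  have h2 := congrArg (fun t : Lam1 ℓ => padicAbs ℓ (t : Qb)) h1
  simp only [Subring.coe_mul, Subring.coe_one, map_mul, map_one] at h2
  have h3 : padicAbs ℓ ((↑u⁻¹ : Lam1 ℓ) : Qb) ≤ 1 :=
    (mem_padicPlace_iff_padicAbs ℓ).mp ((mem_Lam1 ℓ).mp (↑u⁻¹ : Lam1 ℓ).2).1
  have h4 : padicAbs ℓ ((u : Lam1 ℓ) : Qb) ≤ 1 :=
    (mem_padicPlace_iff_padicAbs ℓ).mp ((mem_Lam1 ℓ).mp (u : Lam1 ℓ).2).1
  have h5 : (0 : ℝ) ≤ padicAbs ℓ ((u : Lam1 ℓ) : Qb) := (padicAbs ℓ).nonneg _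
  have h6 : (0 : ℝ) ≤ padicAbs ℓ ((↑u⁻¹ : Lam1 ℓ) : Qb) := (padicAbs ℓ).nonneg _
  nlinarith

/-- Every nonzero element of `Λ₁` is a power of `ℓ` times a unit. -/
theorem exists_pow_mul_unit {x : Lam1 ℓ} (hx : x ≠ 0) :
    ∃ (n : ℕ) (u : Lam1 ℓ), IsUnit u ∧ x = (ℓ : Lam1 ℓ) ^ n * u := by
  set z : ℤ_[ℓ] := lam1ToPadicInt ℓ x with hz
  have hz0 : z ≠ 0 := fun h => hx (lam1ToPadicInt_injective ℓ (by rw [← hz, h, map_zero]))
  have hnorm := PadicInt.norm_eq_zpow_neg_valuation hz0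
  have hℓ0 : (ℓ : Qb) ≠ 0 := by exact_mod_cast hℓ.out.ne_zero
  have hℓR : (ℓ : ℝ) ≠ 0 := by exact_mod_cast hℓ.out.ne_zero
  set n : ℕ := z.valuation with hn
  set y : Qb := (x : Qb) / (ℓ : Qb) ^ n with hy
  have hyK : y ∈ K1 ℓ := div_mem (lam1_le_K1 ℓ x.2) (pow_mem (natCast_mem_K1 ℓ _) _)
  have hyabs : padicAbs ℓ y = 1 := by
    rw [hy, map_div₀, map_pow, padicAbs_natCast_self, padicAbs_coe_lam1, ← hz, hnorm, inv_pow,
      zpow_neg, zpow_natCast]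
    exact div_self (inv_ne_zero (pow_ne_zero _ hℓR))
  refine ⟨n, ⟨y, mem_Lam1_of_norm_le_one ℓ hyK hyabs.le⟩, isUnit_of_padicAbs_eq_one ℓ hyabs,
    Subtype.ext ?_⟩
  simp only [Subring.coe_mul, Subring.coe_pow, Subring.coe_natCast]
  rw [hy]
  field_simp

theorem natCast_ne_zero : (ℓ : Lam1 ℓ) ≠ 0 := by
  intro h
  have := congrArg (fun t : Lam1 ℓ => (t : Qb)) h
  simp only [Subring.coe_natCast, Subring.coe_zero] at this
  exact hℓ.out.ne_zero (by exact_mod_cast this)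

theorem irreducible_natCast : Irreducible (ℓ : Lam1 ℓ) := by
  refine ⟨not_isUnit_natCast ℓ, fun a b hab => ?_⟩
  have ha0 : a ≠ 0 := by
    rintro rfl
    rw [zero_mul] at hab
    exact natCast_ne_zero ℓ hab
  have hb0 : b ≠ 0 := by
    rintro rfl
    rw [mul_zero] at hab
    exact natCast_ne_zero ℓ hab
  obtain ⟨i, u, hu, rfl⟩ := exists_pow_mul_unit ℓ ha0
  obtain ⟨j, v, hv, rfl⟩ := exists_pow_mul_unit ℓ hb0
  have h0 : (ℓ : Lam1 ℓ) ^ (i + j) * (u * v) = (ℓ : Lam1 ℓ) ^ i * u * ((ℓ : Lam1 ℓ) ^ j * v) := by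
    ring
  have h1 : (ℓ : Lam1 ℓ) ^ 1 * 1 = (ℓ : Lam1 ℓ) ^ (i + j) * (u * v) := by
    rw [pow_one, mul_one, h0]
    exact hab
  -- compare absolute values
  have h2 := congrArg (fun t : Lam1 ℓ => padicAbs ℓ (t : Qb)) h1
  simp only [Subring.coe_mul, Subring.coe_pow, Subring.coe_natCast, Subring.coe_one, map_mul,
    map_pow, map_one, padicAbs_eq_one_of_isUnit ℓ hu, padicAbs_eq_one_of_isUnit ℓ hv,
    mul_one] at h2
  have hlt : padicAbs ℓ (ℓ : Qb) < 1 := padicAbs_natCast_lt_one ℓ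
  have hpos : 0 < padicAbs ℓ (ℓ : Qb) := (padicAbs ℓ).pos (by exact_mod_cast hℓ.out.ne_zero)
  have hij : 1 = i + j := pow_right_injective₀ hpos hlt.ne h2
  rcases Nat.eq_zero_or_pos i with hi | hi
  · left
    rw [hi, pow_zero, one_mul]
    exact hu
  · right
    have hj : j = 0 := by omega
    rw [hj, pow_zero, one_mul]
    exact hv

instance isDVR_lam1 : IsDiscreteValuationRing (Lam1 ℓ) :=
  IsDiscreteValuationRing.ofHasUnitMulPowIrreducibleFactorization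
    ⟨(ℓ : Lam1 ℓ), irreducible_natCast ℓ, fun {x} hx => by
      obtain ⟨n, u, hu, rfl⟩ := exists_pow_mul_unit ℓ hx
      obtain ⟨u', rfl⟩ := hu
      exact ⟨n, u', rfl⟩⟩

/-- The maximal ideal of `Λ₁` is generated by `ℓ`. -/
theorem maximalIdeal_lam1 : IsLocalRing.maximalIdeal (Lam1 ℓ) = Ideal.span {(ℓ : Lam1 ℓ)} :=
  (IsDiscreteValuationRing.irreducible_iff_uniformizer _).mp (irreducible_natCast ℓ)

end Fermat.Agent.FF2.Base
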