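import Mathlib
import Fermat.Agent.FF2.Base.Lambda1Dvr
import Fermat.Agent.FF2.Base.GalBasis

/-!
# MOONSHOT S19, node (BASE-2): the unramified base rings `Λ_ζ ⊇ Λ₁` (helper5)

`ζ ∈ ℚ̄` with `ζ ^ m = 1`, `ℓ ∤ m`.  `GamZ ℓ ζ = {σ ∈ D_P | σ ζ = ζ}` (`P = padicPlace ℓ`) and
`LamZ ℓ ζ = {z ∈ P | ∀ σ ∈ GamZ ℓ ζ, σ z = z}` (for `m = ℓⁿ - 1` this is `Λ_n = W(𝔽_{ℓⁿ}) ∩ ℚ̄`).

* `zetaOrbit ℓ hζ hm : OrbitData (DP ℓ) ℚ̄` : the (finite) `D_P`-orbit of `ζ`;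
* `exists_galoisBasis` : `b i = ζ ^ i` and `bd i` lie in `LamZ ℓ ζ` and
  `∑ i < d, b i * σ (bd i) = if σ ζ = ζ then 1 else 0` for all `σ ∈ D_P`;
* `exists_lam1_coeffs` : `LamZ ℓ ζ = ∑ i < d, Λ₁ ζ ^ i`;
* `LamZ ℓ ζ` is a valuation ring, finite over `Λ₁`, noetherian, with `ℓ` in its Jacobson radical.
-/

set_option autoImplicit false
set_option linter.unusedSectionVars false
set_option linter.style.haveILetI false

namespace Fermat.Agent.FF2.Base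

open Fermat.Agent.TW.Hopf.DecompRing Fermat.Agent.S55 Fermat.Agent.FF2.Desc GaloisRep Polynomial

local notation "Qb" => AlgebraicClosure ℚ
local notation "GQ" => (AlgebraicClosure ℚ ≃ₐ[ℚ] AlgebraicClosure ℚ)

variable (ℓ : ℕ) [hℓ : Fact ℓ.Prime]

/-- The stabiliser of `ζ` in the decomposition group. -/
noncomputable def GamZ (ζ : Qb) : Subgroup GQ := DP ℓ ⊓ MulAction.stabilizer GQ ζ

theorem mem_GamZ {ζ : Qb} {σ : GQ} : σ ∈ GamZ ℓ ζ ↔ σ ∈ DP ℓ ∧ σ ζ = ζ := Iff.rfl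

/-- The ring `Λ_ζ`: the elements of `P` fixed by `GamZ ℓ ζ`. -/
noncomputable def LamZ (ζ : Qb) : Subring Qb where
  carrier := {z | z ∈ padicPlace ℓ ∧ ∀ σ ∈ GamZ ℓ ζ, σ z = z}
  mul_mem' {a b} ha hb := ⟨(padicPlace ℓ).mul_mem _ _ ha.1 hb.1, fun σ hσ => by
    rw [map_mul, ha.2 σ hσ, hb.2 σ hσ]⟩
  one_mem' := ⟨(padicPlace ℓ).one_mem, fun σ _ => map_one σ⟩
  add_mem' {a b} ha hb := ⟨(padicPlace ℓ).add_mem _ _ ha.1 hb.1, fun σ hσ => by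
    rw [map_add, ha.2 σ hσ, hb.2 σ hσ]⟩
  zero_mem' := ⟨(padicPlace ℓ).zero_mem, fun σ _ => map_zero σ⟩
  neg_mem' {a} ha := ⟨(padicPlace ℓ).neg_mem _ ha.1, fun σ hσ => by rw [map_neg, ha.2 σ hσ]⟩

theorem mem_LamZ {ζ z : Qb} :
    z ∈ LamZ ℓ ζ ↔ z ∈ padicPlace ℓ ∧ ∀ σ ∈ GamZ ℓ ζ, σ z = z := Iff.rfl

theorem lam1_le_LamZ (ζ : Qb) : Lam1 ℓ ≤ LamZ ℓ ζ := fun _ hz =>
  ⟨hz.1, fun σ hσ => hz.2 σ hσ.1⟩

/-- The decomposition group preserves `P`. -/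
theorem smul_mem_padicPlace (g : DP ℓ) {x : Qb} (hx : x ∈ padicPlace ℓ) :
    g • x ∈ padicPlace ℓ := by
  rw [mem_padicPlace_iff_padicAbs] at hx ⊢
  rw [show g • x = (g : GQ) x from rfl, padicAbs_apply_of_mem_decompositionSubgroup ℓ g.2]
  exact hx

section Zeta

variable {ℓ}
variable {ζ : Qb} {m : ℕ} (hζ : ζ ^ m = 1) (hm : ¬ ℓ ∣ m)
include hζ hm

theorem m_pos : 0 < m := Nat.pos_of_ne_zero fun h => hm (h ▸ dvd_zero ℓ)

/-- Roots of unity lie in `P`. -/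
theorem mem_padicPlace_of_pow_eq_one {w : Qb} (hw : w ^ m = 1) : w ∈ padicPlace ℓ := by
  rw [mem_padicPlace_iff_padicAbs]
  have h1 : padicAbs ℓ w ^ m = 1 := by rw [← map_pow, hw, map_one]
  exact ((pow_eq_one_iff_of_nonneg ((padicAbs ℓ).nonneg w) (m_pos hζ hm).ne').mp h1).le

open Classical in
/-- The `D_P`-orbit of `ζ`. -/
noncomputable def zetaOrbit : OrbitData (DP ℓ) Qb where
  Z := (nthRootsFinset m (1 : Qb)).filter fun z => ∃ g : DP ℓ, g • ζ = z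
  ζ := ζ
  mem := by
    rw [Finset.mem_filter, mem_nthRootsFinset (m_pos hζ hm)]
    exact ⟨hζ, 1, one_smul _ _⟩
  stable := by
    intro g z hz
    rw [Finset.mem_filter, mem_nthRootsFinset (m_pos hζ hm)] at hz ⊢
    obtain ⟨hz1, g₀, rfl⟩ := hz
    refine ⟨?_, g * g₀, mul_smul _ _ _⟩
    rw [← smul_pow', hz1, smul_one]
  trans := by
    intro z hz
    rw [Finset.mem_filter] at hz
    exact hz.2

@[simp] theorem zetaOrbit_ζ : (zetaOrbit hζ hm).ζ = ζ := rfl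

open Classical in
theorem pow_eq_one_of_mem_zetaOrbit {w : Qb} (hw : w ∈ (zetaOrbit hζ hm).Z) : w ^ m = 1 := by
  have h1 := (Finset.mem_filter.mp hw).1
  rwa [mem_nthRootsFinset (m_pos hζ hm)] at h1

/-- `m` is invertible in `P`. -/
theorem inv_natCast_mem_padicPlace : ((m : Qb))⁻¹ ∈ padicPlace ℓ := by
  have h1 : ((m : ℚ))⁻¹ ∈ ratLocalizedAt ℓ := by
    rw [mem_ratLocalizedAt_iff, Rat.inv_natCast_den, if_neg (m_pos hζ hm).ne']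
    exact hm
  have h2 := ratCast_mem_Lam1 ℓ h1
  rw [map_inv₀, map_natCast] at h2
  exact h2.1

/-- Distinct `m`-th roots of unity differ by a unit of `P`. -/
theorem inv_sub_mem_padicPlace {w : Qb} (hw : w ^ m = 1) (hwζ : w ≠ ζ) :
    (ζ - w)⁻¹ ∈ padicPlace ℓ := by
  have hmpos := m_pos hζ hm
  have hζP := mem_padicPlace_of_pow_eq_one hζ hm hζ
  have hwP := mem_padicPlace_of_pow_eq_one hζ hm hw
  have hζ0 : ζ ≠ 0 := by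
    rintro rfl
    rw [zero_pow hmpos.ne'] at hζ
    exact zero_ne_one hζ
  have hζinv : ζ⁻¹ = ζ ^ (m - 1) := by
    rw [eq_comm, ← mul_eq_one_iff_eq_inv₀ hζ0, ← pow_succ, Nat.sub_add_cancel hmpos, hζ]
  -- `u = w / ζ` as an element of `P`
  let u : padicPlace ℓ := ⟨w * ζ ^ (m - 1), (padicPlace ℓ).mul_mem _ _ hwP
    ((padicPlace ℓ).pow_mem hζP _)⟩
  have hu : u ^ m = 1 := by
    apply Subtype.ext
    show (w * ζ ^ (m - 1)) ^ m = 1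
    rw [mul_pow, hw, one_mul, ← pow_mul, mul_comm, pow_mul, hζ, one_pow]
  have hu1 : u ≠ 1 := by
    intro h
    have h1 : w * ζ ^ (m - 1) = 1 := congrArg Subtype.val h
    rw [← hζinv, mul_inv_eq_one₀ hζ0] at h1
    exact hwζ h1
  have hmunit : IsUnit ((m : ℕ) : padicPlace ℓ) := by
    have hm0 : (m : Qb) ≠ 0 := by exact_mod_cast hmpos.ne'
    refine IsUnit.of_mul_eq_one ⟨_, inv_natCast_mem_padicPlace hζ hm⟩ (Subtype.ext ?_)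
    show ((m : padicPlace ℓ) : Qb) * ((m : Qb))⁻¹ = 1
    rw [show (((m : ℕ) : padicPlace ℓ) : Qb) = (m : Qb) from rfl, mul_inv_cancel₀ hm0]
  obtain ⟨v, hv⟩ := isUnit_one_sub_of_pow_eq_one hu hu1 hmunit
  have hvinv : ((1 : Qb) - w * ζ ^ (m - 1))⁻¹ ∈ padicPlace ℓ := by
    have h1 : ((↑v⁻¹ : padicPlace ℓ) : Qb) * (1 - w * ζ ^ (m - 1)) = 1 := by
      have h2 : (↑v⁻¹ : padicPlace ℓ) * (1 - u) = 1 := by rw [← hv]; exact v.inv_mul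
      exact congrArg Subtype.val h2
    rw [← eq_inv_of_mul_eq_one_left h1]
    exact (↑v⁻¹ : padicPlace ℓ).2
  have h3 : (ζ - w)⁻¹ = ζ ^ (m - 1) * (1 - w * ζ ^ (m - 1))⁻¹ := by
    rw [← hζinv, ← mul_inv]
    congr 1
    field_simp
  rw [h3]
  exact (padicPlace ℓ).mul_mem _ _ ((padicPlace ℓ).pow_mem hζP _) hvinv

/-- `q_ζ(ζ)` is a unit of `P`. -/
theorem inv_eval_cofactor_mem :
    ((cofactor (zetaOrbit hζ hm).Z ζ).eval ζ)⁻¹ ∈ padicPlace ℓ := by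
  unfold cofactor
  rw [eval_prod, ← Finset.prod_inv_distrib]
  refine Subring.prod_mem (padicPlace ℓ).toSubring fun w hw => ?_
  rw [eval_sub, eval_X, eval_C]
  exact inv_sub_mem_padicPlace hζ hm
    (pow_eq_one_of_mem_zetaOrbit hζ hm (Finset.mem_of_mem_erase hw)) (Finset.ne_of_mem_erase hw)

/-! ### The Galois basis and the module structure -/

theorem isFix_iff {x : Qb} :
    (zetaOrbit hζ hm).IsFix x ↔ ∀ σ ∈ GamZ ℓ ζ, σ x = x := by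
  constructor
  · intro h σ hσ
    exact h ⟨σ, hσ.1⟩ hσ.2
  · intro h g hg
    exact h g.1 ⟨g.2, hg⟩

theorem zeta_mem_LamZ : ζ ∈ LamZ ℓ ζ :=
  ⟨mem_padicPlace_of_pow_eq_one hζ hm hζ, fun _ hσ => hσ.2⟩

theorem zeta_pow_mem_LamZ (i : ℕ) : ζ ^ i ∈ LamZ ℓ ζ := pow_mem (zeta_mem_LamZ hζ hm) i

/-- The degree of `Λ_ζ` over `Λ₁`. -/
noncomputable def dZ : ℕ := (zetaOrbit hζ hm).d

/-- The dual basis elements. -/
noncomputable def bdZ (i : ℕ) : Qb := (zetaOrbit hζ hm).bd i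

theorem bdZ_mem_padicPlace (i : ℕ) : bdZ hζ hm i ∈ padicPlace ℓ :=
  (zetaOrbit hζ hm).bd_mem (padicPlace ℓ).toSubring (fun g _ hx => smul_mem_padicPlace ℓ g hx)
    (mem_padicPlace_of_pow_eq_one hζ hm hζ) (inv_eval_cofactor_mem hζ hm) i

theorem bdZ_mem_LamZ (i : ℕ) : bdZ hζ hm i ∈ LamZ ℓ ζ :=
  ⟨bdZ_mem_padicPlace hζ hm i, (isFix_iff hζ hm).mp ((zetaOrbit hζ hm).isFix_bd i)⟩

/-- **The integral Galois basis of `Λ_ζ` over `Λ₁`.** -/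
theorem sum_pow_mul_apply_bdZ {σ : GQ} (hσ : σ ∈ DP ℓ) :
    ∑ i ∈ Finset.range (dZ hζ hm), ζ ^ i * σ (bdZ hζ hm i) = if σ ζ = ζ then 1 else 0 :=
  (zetaOrbit hζ hm).sum_pow_mul_smul_bd ⟨σ, hσ⟩

/-- **`Λ_ζ = ∑ i < d, Λ₁ ζ ^ i`.** -/
theorem exists_lam1_coeffs {x : Qb} (hx : x ∈ LamZ ℓ ζ) :
    ∃ c : ℕ → Qb, (∀ i, c i ∈ Lam1 ℓ) ∧
      x = ∑ i ∈ Finset.range (dZ hζ hm), c i * ζ ^ i := by
  have hfix : (zetaOrbit hζ hm).IsFix x := (isFix_iff hζ hm).mpr hx.2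
  refine ⟨fun i => (zetaOrbit hζ hm).tr (bdZ hζ hm i * x), fun i => ⟨?_, fun σ hσ => ?_⟩,
    hfix.eq_sum_tr_mul_pow⟩
  · exact (zetaOrbit hζ hm).tr_mem (padicPlace ℓ).toSubring
      (fun g _ hy => smul_mem_padicPlace ℓ g hy)
      ((padicPlace ℓ).mul_mem _ _ (bdZ_mem_padicPlace hζ hm i) hx.1)
  · exact (((zetaOrbit hζ hm).isFix_bd i).mul _ hfix).smul_tr _ ⟨σ, hσ⟩

end Zeta

/-! ### Ring-theoretic properties of `Λ_ζ` -/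

section Ring

variable (ζ : Qb)

noncomputable instance algebraLam1LamZ : Algebra (Lam1 ℓ) (LamZ ℓ ζ) :=
  (Subring.inclusion (lam1_le_LamZ ℓ ζ)).toAlgebra

theorem coe_algebraMap_lam1_LamZ (x : Lam1 ℓ) :
    ((algebraMap (Lam1 ℓ) (LamZ ℓ ζ) x : LamZ ℓ ζ) : Qb) = (x : Qb) := rfl

instance towerLam1LamZ : IsScalarTower (Lam1 ℓ) (LamZ ℓ ζ) Qb :=
  IsScalarTower.of_algebraMap_eq' rfl

/-- An element fixed by `GamZ ℓ ζ`, or its inverse, lies in `Λ_ζ`. -/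
theorem mem_or_inv_mem_LamZ {z : Qb} (hz : ∀ σ ∈ GamZ ℓ ζ, σ z = z) :
    z ∈ LamZ ℓ ζ ∨ z⁻¹ ∈ LamZ ℓ ζ := by
  rcases (padicPlace ℓ).mem_or_inv_mem z with h | h
  · exact Or.inl ⟨h, hz⟩
  · exact Or.inr ⟨h, fun σ hσ => by rw [map_inv₀, hz σ hσ]⟩

instance valuationRing_LamZ : ValuationRing (LamZ ℓ ζ) := by
  haveI : PreValuationRing (LamZ ℓ ζ) := by
    refine ⟨fun a b => ?_⟩
    by_cases ha : a = 0
    · exact ⟨0, Or.inr (by rw [ha, mul_zero])⟩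
    have ha' : (a : Qb) ≠ 0 := fun h => ha (Subtype.ext h)
    have hfix : ∀ σ ∈ GamZ ℓ ζ, σ ((b : Qb) / (a : Qb)) = (b : Qb) / (a : Qb) :=
      fun σ hσ => by rw [map_div₀, a.2.2 σ hσ, b.2.2 σ hσ]
    rcases mem_or_inv_mem_LamZ ℓ ζ hfix with h | h
    · refine ⟨⟨_, h⟩, Or.inl (Subtype.ext ?_)⟩
      show (a : Qb) * ((b : Qb) / (a : Qb)) = b
      field_simp
    · by_cases hb : b = 0
      · exact ⟨0, Or.inl (by rw [hb, mul_zero])⟩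
      have hb' : (b : Qb) ≠ 0 := fun h => hb (Subtype.ext h)
      refine ⟨⟨_, h⟩, Or.inr (Subtype.ext ?_)⟩
      show (b : Qb) * ((b : Qb) / (a : Qb))⁻¹ = a
      field_simp
  exact {}

theorem not_isUnit_natCast_LamZ : ¬ IsUnit (ℓ : LamZ ℓ ζ) := by
  rintro ⟨u, hu⟩
  have h1 : (ℓ : LamZ ℓ ζ) * (↑u⁻¹ : LamZ ℓ ζ) = 1 := by rw [← hu]; exact u.mul_inv
  have h2 := congrArg (fun t : LamZ ℓ ζ => padicAbs ℓ (t : Qb)) h1
  simp only [Subring.coe_mul, Subring.coe_natCast, Subring.coe_one, map_mul, map_one] at h2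
  have h3 : padicAbs ℓ ((↑u⁻¹ : LamZ ℓ ζ) : Qb) ≤ 1 :=
    (mem_padicPlace_iff_padicAbs ℓ).mp (↑u⁻¹ : LamZ ℓ ζ).2.1
  have h4 := padicAbs_natCast_lt_one ℓ
  have h5 : (0 : ℝ) ≤ padicAbs ℓ (ℓ : Qb) := (padicAbs ℓ).nonneg _
  nlinarith

/-- `ℓ` lies in the Jacobson radical of `Λ_ζ`. -/
theorem natCast_mem_jacobson_LamZ : (ℓ : LamZ ℓ ζ) ∈ Ideal.jacobson (⊥ : Ideal (LamZ ℓ ζ)) := by
  rw [IsLocalRing.jacobson_eq_maximalIdeal ⊥ bot_ne_top]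
  exact (IsLocalRing.mem_maximalIdeal _).mpr (not_isUnit_natCast_LamZ ℓ ζ)

end Ring

section Finite

variable {ℓ}
variable {ζ : Qb} {m : ℕ} (hζ : ζ ^ m = 1) (hm : ¬ ℓ ∣ m)
include hζ hm

/-- `Λ_ζ` is a finite `Λ₁`-module (generated by `ζ ^ i`, `i < d`). -/
theorem finite_LamZ : Module.Finite (Lam1 ℓ) (LamZ ℓ ζ) := by
  let v : Fin (dZ hζ hm) → LamZ ℓ ζ := fun i => ⟨ζ ^ (i : ℕ), zeta_pow_mem_LamZ hζ hm i⟩
  refine Module.Finite.of_surjective (Fintype.linearCombination (Lam1 ℓ) v) ?_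
  intro x
  obtain ⟨c, hc, hx⟩ := exists_lam1_coeffs hζ hm x.2
  refine ⟨fun i => ⟨c i, hc i⟩, Subtype.ext ?_⟩
  rw [Fintype.linearCombination_apply, hx, ← Fin.sum_univ_eq_sum_range (fun i => c i * ζ ^ i)]
  rw [AddSubmonoidClass.coe_finsetSum]
  rfl

theorem isNoetherianRing_LamZ : IsNoetherianRing (LamZ ℓ ζ) :=
  haveI := finite_LamZ hζ hm
  IsNoetherianRing.of_finite (Lam1 ℓ) (LamZ ℓ ζ)

end Finite

end Fermat.Agent.FF2.Base
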