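import Mathlib
import Fermat.Agent.FF2.Base.GalBasis

/-!
# MOONSHOT S19, node (BASE): integrality from a finite orbit (helper5)

`O : OrbitData G Ω`, `P` a `G`-stable subring of `Ω` containing `ζ`, `R` a subring containing the
`G`-fixed elements of `P`.  Then `ζ` is integral over `R`: it is a root of the monic polynomial
`∏_{w ∈ Z} (X - w)`, whose coefficients are `G`-fixed and lie in `P`.  Mathlib only.
-/

set_option autoImplicit false
set_option linter.unusedSectionVars false

namespace Fermat.Agent.FF2.Base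

open Polynomial

namespace OrbitData

variable {Ω : Type*} [Field Ω] [DecidableEq Ω] {G : Type*} [Group G] [MulSemiringAction G Ω]
variable (O : OrbitData G Ω)

/-- The orbit polynomial `∏_{w ∈ Z} (X - w)`. -/
noncomputable def orbPoly : Polynomial Ω := ∏ w ∈ O.Z, (X - C w)

theorem monic_orbPoly : O.orbPoly.Monic := monic_prod_of_monic _ _ fun w _ => monic_X_sub_C w

theorem eval_orbPoly : O.orbPoly.eval O.ζ = 0 := by
  unfold orbPoly
  rw [eval_prod]
  exact Finset.prod_eq_zero O.mem (by rw [eval_sub, eval_X, eval_C, sub_self])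

theorem map_orbPoly (g : G) :
    O.orbPoly.map (MulSemiringAction.toRingHom G Ω g) = O.orbPoly := by
  have hinj : Function.Injective (fun w : Ω => g • w) := MulAction.injective g
  have himage : O.Z.image (fun w : Ω => g • w) = O.Z :=
    Finset.eq_of_subset_of_card_le (Finset.image_subset_iff.mpr (O.stable g))
      (by rw [Finset.card_image_of_injective _ hinj])
  unfold orbPoly
  rw [Polynomial.map_prod]
  conv_rhs => rw [← himage, Finset.prod_image (fun a _ b _ h => hinj h)]
  refine Finset.prod_congr rfl fun w _ => ?_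
  rw [Polynomial.map_sub, map_X, map_C]
  rfl

theorem smul_coeff_orbPoly (g : G) (i : ℕ) : g • O.orbPoly.coeff i = O.orbPoly.coeff i := by
  conv_rhs => rw [← O.map_orbPoly g, coeff_map]
  rfl

theorem coeff_orbPoly_mem (P : Subring Ω) (hP : ∀ g : G, ∀ x ∈ P, g • x ∈ P) (hζ : O.ζ ∈ P)
    (i : ℕ) : O.orbPoly.coeff i ∈ P :=
  coeff_prod_X_sub_C_mem P _ (fun _ hw => O.mem_of_mem_Z P hP hζ hw) i

/-- **Integrality of an element with finite orbit.** -/
theorem isIntegral (P : Subring Ω) (hP : ∀ g : G, ∀ x ∈ P, g • x ∈ P) (hζ : O.ζ ∈ P)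
    (R : Subring Ω) (hR : ∀ x ∈ P, (∀ g : G, g • x = x) → x ∈ R) : IsIntegral R O.ζ := by
  have hcoeff : (↑O.orbPoly.coeffs : Set Ω) ⊆ R := by
    intro c hc
    obtain ⟨i, -, rfl⟩ := Polynomial.mem_coeffs_iff.mp hc
    exact hR _ (O.coeff_orbPoly_mem P hP hζ i) fun g => O.smul_coeff_orbPoly g i
  refine ⟨O.orbPoly.toSubring R hcoeff, (monic_toSubring _ _ _).mpr O.monic_orbPoly, ?_⟩
  have h1 : (O.orbPoly.toSubring R hcoeff).map R.subtype = O.orbPoly := map_toSubring _ _ _
  have h2 : algebraMap R Ω = R.subtype := rfl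
  rw [h2, ← eval_map, h1]
  exact O.eval_orbPoly

end OrbitData

end Fermat.Agent.FF2.Base
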