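import Mathlib
import Fermat.Agent.FF2.Base.LambdaZeta
import Fermat.Agent.FF2.Base.OrbitIntegral

/-!
# MOONSHOT S19, node (BASE): exports of `Λ_ζ` for the chart lemma consumer (helper5)

For `W = LamZ ℓ ζ` (any `ζ : ℚ̄`; the noetherian property needs `ζ ^ m = 1`, `ℓ ∤ m`):

* `KZ ℓ ζ : IntermediateField ℚ ℚ̄` the fixed field of `GamZ ℓ ζ`, with
  `Algebra (LamZ ℓ ζ) (KZ ℓ ζ)`, scalar towers and `IsFractionRing (LamZ ℓ ζ) (KZ ℓ ζ)`;
* `isIntegral_LamZ_of_mem_padicPlace` : every `z ∈ P = padicPlace ℓ` is integral over `Λ_ζ`,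
  and conversely (`mem_padicPlace_of_isIntegral_LamZ`);
* `IsIntegrallyClosed (LamZ ℓ ζ)`, `natCast_ne_zero_LamZ`.

This is the list of hypotheses of helper22's `chartAlg_isDeltaStable_of_isIntegral`
(`FF2/R2/FiniteLevel.lean`).
-/

set_option autoImplicit false
set_option linter.unusedSectionVars false
set_option linter.style.haveILetI false

namespace Fermat.Agent.FF2.Base

open Fermat.Agent.TW.Hopf.DecompRing Fermat.Agent.S55 Fermat.Agent.FF2.Desc GaloisRep Polynomial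

local notation "Qb" => AlgebraicClosure ℚ
local notation "GQ" => (AlgebraicClosure ℚ ≃ₐ[ℚ] AlgebraicClosure ℚ)

variable (ℓ : ℕ) [hℓ : Fact ℓ.Prime] (ζ : Qb)

/-- The fixed field of `GamZ ℓ ζ`: the fraction field of `Λ_ζ`. -/
noncomputable abbrev KZ : IntermediateField ℚ Qb := IntermediateField.fixedField (GamZ ℓ ζ)

theorem mem_KZ {x : Qb} : x ∈ KZ ℓ ζ ↔ ∀ σ ∈ GamZ ℓ ζ, σ x = x := by
  constructor
  · intro h σ hσ
    exact h ⟨σ, hσ⟩
  · intro h σ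
    exact h σ.1 σ.2

theorem LamZ_le_KZ {x : Qb} (hx : x ∈ LamZ ℓ ζ) : x ∈ KZ ℓ ζ := (mem_KZ ℓ ζ).mpr hx.2

/-- The inclusion `Λ_ζ ⊆ K_ζ`. -/
noncomputable def lamZToKZ : LamZ ℓ ζ →+* KZ ℓ ζ where
  toFun x := ⟨x.1, LamZ_le_KZ ℓ ζ x.2⟩
  map_one' := rfl
  map_mul' _ _ := rfl
  map_zero' := rfl
  map_add' _ _ := rfl

noncomputable instance algebraLamZKZ : Algebra (LamZ ℓ ζ) (KZ ℓ ζ) := (lamZToKZ ℓ ζ).toAlgebra

theorem coe_algebraMap_LamZ_KZ (x : LamZ ℓ ζ) :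
    ((algebraMap (LamZ ℓ ζ) (KZ ℓ ζ) x : KZ ℓ ζ) : Qb) = (x : Qb) := rfl

instance towerLamZKZ : IsScalarTower (LamZ ℓ ζ) (KZ ℓ ζ) Qb :=
  IsScalarTower.of_algebraMap_eq' rfl

instance faithfulSMul_LamZ_KZ : FaithfulSMul (LamZ ℓ ζ) (KZ ℓ ζ) := by
  rw [faithfulSMul_iff_algebraMap_injective]
  intro a b hab
  exact Subtype.ext (congrArg (fun t : KZ ℓ ζ => (t : Qb)) hab)

instance isFractionRing_LamZ : IsFractionRing (LamZ ℓ ζ) (KZ ℓ ζ) := by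
  refine IsFractionRing.of_field (LamZ ℓ ζ) (KZ ℓ ζ) fun z => ?_
  rcases mem_or_inv_mem_LamZ ℓ ζ ((mem_KZ ℓ ζ).mp z.2) with h | h
  · refine ⟨⟨_, h⟩, 1, Subtype.ext ?_⟩
    rw [map_one, div_one]
    rfl
  · refine ⟨1, ⟨_, h⟩, Subtype.ext ?_⟩
    rw [map_one, one_div]
    show (z : Qb) = (((z : Qb))⁻¹)⁻¹
    rw [inv_inv]

theorem natCast_ne_zero_LamZ : (ℓ : LamZ ℓ ζ) ≠ 0 := by
  intro h
  have := congrArg (fun t : LamZ ℓ ζ => (t : Qb)) h
  simp only [Subring.coe_natCast, Subring.coe_zero] at this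
  exact hℓ.out.ne_zero (by exact_mod_cast this)

instance isAlgebraic_KZ : Algebra.IsAlgebraic (KZ ℓ ζ) Qb :=
  haveI : Algebra.IsAlgebraic ℚ Qb := AlgebraicClosure.isAlgebraic ℚ
  Algebra.IsAlgebraic.tower_top (K := ℚ) (KZ ℓ ζ)

/-! ### Integrality of `P` over `Λ_ζ` -/

theorem smul_mem_padicPlace_of_GamZ (g : GamZ ℓ ζ) {x : Qb} (hx : x ∈ padicPlace ℓ) :
    g • x ∈ padicPlace ℓ :=
  smul_mem_padicPlace ℓ ⟨g.1, g.2.1⟩ hx

open Classical in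
/-- The (finite) `Γ_ζ`-orbit of an element of `ℚ̄`. -/
noncomputable def orbitOf (z : Qb) : OrbitData ↥(GamZ ℓ ζ) Qb where
  Z := ((minpoly ℚ z).aroots Qb).toFinset.filter fun w => ∃ g : GamZ ℓ ζ, g • z = w
  ζ := z
  mem := by
    have hint : IsIntegral ℚ z := ((AlgebraicClosure.isAlgebraic ℚ).isAlgebraic z).isIntegral
    rw [Finset.mem_filter, Multiset.mem_toFinset, mem_aroots]
    exact ⟨⟨minpoly.ne_zero hint, minpoly.aeval ℚ z⟩, 1, one_smul _ _⟩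
  stable := by
    intro g w hw
    have hint : IsIntegral ℚ z := ((AlgebraicClosure.isAlgebraic ℚ).isAlgebraic z).isIntegral
    rw [Finset.mem_filter] at hw ⊢
    obtain ⟨-, g₀, rfl⟩ := hw
    refine ⟨?_, g * g₀, mul_smul _ _ _⟩
    rw [Multiset.mem_toFinset, mem_aroots]
    refine ⟨minpoly.ne_zero hint, ?_⟩
    have h1 : g • g₀ • z = ((g * g₀ : GamZ ℓ ζ) : GQ) z := by rw [← mul_smul]; rfl
    rw [h1]
    have h2 := Polynomial.aeval_algHom_apply (((g * g₀ : GamZ ℓ ζ) : GQ) : Qb →ₐ[ℚ] Qb) z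
      (minpoly ℚ z)
    rw [minpoly.aeval, map_zero] at h2
    exact h2
  trans := by
    intro w hw
    rw [Finset.mem_filter] at hw
    exact hw.2

/-- **Every element of `P` is integral over `Λ_ζ`.** -/
theorem isIntegral_LamZ_of_mem_padicPlace {z : Qb} (hz : z ∈ padicPlace ℓ) :
    IsIntegral (LamZ ℓ ζ) z := by
  classical
  exact (orbitOf ℓ ζ z).isIntegral (padicPlace ℓ).toSubring
    (fun g _ hx => smul_mem_padicPlace_of_GamZ ℓ ζ g hx) hz (LamZ ℓ ζ)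
    (fun x hx hfix => ⟨hx, fun σ hσ => hfix ⟨σ, hσ⟩⟩)

/-- Elements of `P`, as elements of the integral closure of `Λ_ζ` in `ℚ̄`. -/
noncomputable def toIntegralClosure (z : padicPlace ℓ) : integralClosure (LamZ ℓ ζ) Qb :=
  ⟨z.1, isIntegral_LamZ_of_mem_padicPlace ℓ ζ z.2⟩

@[simp] theorem coe_toIntegralClosure (z : padicPlace ℓ) :
    ((toIntegralClosure ℓ ζ z : integralClosure (LamZ ℓ ζ) Qb) : Qb) = (z : Qb) := rfl

end Fermat.Agent.FF2.Base
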