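import Mathlib
import Fermat.Agent.FF2.Base.GalBasis

/-!
# MOONSHOT S19, node (GB): uniqueness of the coefficients in the basis `ζ ^ i` (helper5)

`O : OrbitData G Ω`, `d = #Z`.  The powers `ζ ^ i` (`i < d`) are linearly independent over the
`G`-fixed elements (Vandermonde: a polynomial of degree `< d` with the `d` roots `z ∈ Z` vanishes),
hence the coefficients of `x = ∑ i < d, c i * ζ ^ i` with `G`-fixed `c i` are `c j = tr (bd j * x)`.
Mathlib only.
-/

set_option autoImplicit false
set_option linter.unusedSectionVars false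

namespace Fermat.Agent.FF2.Base

open Polynomial

namespace OrbitData

variable {Ω : Type*} [Field Ω] [DecidableEq Ω] {G : Type*} [Group G] [MulSemiringAction G Ω]
variable (O : OrbitData G Ω)

/-- The powers `ζ ^ i`, `i < d`, are linearly independent over the `G`-fixed elements. -/
theorem eq_zero_of_sum_mul_pow_eq_zero (a : ℕ → Ω) (ha : ∀ i (g : G), g • a i = a i)
    (h : ∑ i ∈ Finset.range O.d, a i * O.ζ ^ i = 0) : ∀ i < O.d, a i = 0 := by
  set p : Polynomial Ω := ∑ i ∈ Finset.range O.d, C (a i) * X ^ i with hp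
  have heval : ∀ z ∈ O.Z, p.eval z = 0 := by
    intro z hz
    obtain ⟨g, rfl⟩ := O.trans z hz
    have h1 : p.eval (g • O.ζ) = g • ∑ i ∈ Finset.range O.d, a i * O.ζ ^ i := by
      rw [hp, eval_finsetSum, Finset.smul_sum]
      refine Finset.sum_congr rfl fun i _ => ?_
      rw [eval_mul, eval_C, eval_pow, eval_X, smul_mul', smul_pow', ha i g]
    rw [h1, h, smul_zero]
  have hdeg : p.natDegree < O.Z.card := by
    by_cases hd : O.d = 0
    · exfalso
      have : O.Z.card = 0 := hd
      rw [Finset.card_eq_zero] at this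
      have := O.mem
      rw [‹O.Z = ∅›] at this
      exact absurd this (Finset.notMem_empty _)
    · have h1 : p.degree < (O.d : WithBot ℕ) := by
        rw [hp]
        refine (degree_sum_le _ _).trans_lt ?_
        rw [Finset.sup_lt_iff (WithBot.bot_lt_coe _)]
        intro i hi
        exact (degree_C_mul_X_pow_le i (a i)).trans_lt
          (by exact_mod_cast Finset.mem_range.mp hi)
      by_cases hp0 : p = 0
      · rw [hp0, natDegree_zero]
        exact Nat.pos_of_ne_zero hd
      · exact (natDegree_lt_iff_degree_lt hp0).mpr h1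
  have hzero : p = 0 := eq_zero_of_natDegree_lt_card_of_eval_eq_zero' p O.Z heval hdeg
  intro i hi
  have h2 : p.coeff i = a i := by
    rw [hp, finsetSum_coeff, Finset.sum_eq_single i]
    · rw [coeff_C_mul, coeff_X_pow, if_pos rfl, mul_one]
    · intro j _ hji
      rw [coeff_C_mul, coeff_X_pow, if_neg hji.symm, mul_zero]
    · intro hni
      exact absurd (Finset.mem_range.mpr hi) hni
  rw [← h2, hzero, coeff_zero]

theorem tr_mul_of_fixed {c : Ω} (hc : ∀ g : G, g • c = c) (y : Ω) : O.tr (c * y) = c * O.tr y := by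
  unfold tr
  rw [Finset.mul_sum]
  refine Finset.sum_congr rfl fun z _ => ?_
  rw [smul_mul', hc]

/-- A combination of the `ζ ^ i` with fixed coefficients is fixed by the stabiliser of `ζ`. -/
theorem isFix_sum (c : ℕ → Ω) (hc : ∀ i (g : G), g • c i = c i) (n : ℕ) :
    O.IsFix (∑ i ∈ Finset.range n, c i * O.ζ ^ i) := by
  intro g hg
  rw [Finset.smul_sum]
  refine Finset.sum_congr rfl fun i _ => ?_
  rw [smul_mul', smul_pow', hc i g, hg]

/-- **The coefficients are given by the dual basis.** -/
theorem tr_bd_mul_sum (c : ℕ → Ω) (hc : ∀ i (g : G), g • c i = c i) {j : ℕ} (hj : j < O.d) :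
    O.tr (O.bd j * ∑ i ∈ Finset.range O.d, c i * O.ζ ^ i) = c j := by
  set x := ∑ i ∈ Finset.range O.d, c i * O.ζ ^ i with hx
  have hfix : O.IsFix x := O.isFix_sum c hc O.d
  have h1 := hfix.eq_sum_tr_mul_pow
  have h2 : ∑ i ∈ Finset.range O.d, (O.tr (O.bd i * x) - c i) * O.ζ ^ i = 0 := by
    simp_rw [sub_mul]
    rw [Finset.sum_sub_distrib, ← h1, hx, sub_self]
  have h3 := O.eq_zero_of_sum_mul_pow_eq_zero (fun i => O.tr (O.bd i * x) - c i)
    (fun i g => by
      rw [smul_sub, ((O.isFix_bd i).mul O hfix).smul_tr O g, hc i g]) h2 j hj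
  exact sub_eq_zero.mp h3

end OrbitData

end Fermat.Agent.FF2.Base
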