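import Mathlib
import Fermat.Agent.FF2.Base.LambdaZeta
import Fermat.Agent.FF2.Base.OrbitUnique
import Fermat.Agent.FF2.Base.LamZExports
import Fermat.Agent.FF2.Base.Lambda1Dvr

/-!
# MOONSHOT S19, node (BASE-2): `Λ_ζ` is a discrete valuation ring with uniformizer `ℓ` (helper5)

For `ζ ^ m = 1`, `ℓ ∤ m`: every nonzero element of `LamZ ℓ ζ` is a power of `ℓ` times a unit
(`exists_pow_mul_unit_LamZ`); hence `IsDiscreteValuationRing (LamZ ℓ ζ)` and
`maximalIdeal (LamZ ℓ ζ) = span {ℓ}` (`Λ_ζ / Λ₁` is unramified).  Proof: write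
`x = ∑ i < d, c i ζ ^ i` with `c i ∈ Λ₁`, divide by the largest power of `ℓ` dividing all `c i`;
then some coefficient `c j = tr (bd j * x)` is a unit of `Λ₁`, and `tr (bd j * x) / x ∈ P` because
`D_P` preserves the absolute value.
-/

set_option autoImplicit false
set_option linter.unusedSectionVars false
set_option linter.style.haveILetI false

namespace Fermat.Agent.FF2.Base

open Fermat.Agent.TW.Hopf.DecompRing Fermat.Agent.S55 Fermat.Agent.FF2.Desc GaloisRep Polynomial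

local notation "Qb" => AlgebraicClosure ℚ
local notation "GQ" => (AlgebraicClosure ℚ ≃ₐ[ℚ] AlgebraicClosure ℚ)

variable {ℓ : ℕ} [hℓ : Fact ℓ.Prime]
variable {ζ : Qb} {m : ℕ} (hζ : ζ ^ m = 1) (hm : ¬ ℓ ∣ m)
include hζ hm

/-- `tr (y) / t ∈ P` when `y / t ∈ P`... in the form used below: for `t ≠ 0` fixed by `Γ_ζ`,
`tr (b * t) / t ∈ P` for every `b ∈ P`. -/
theorem tr_mul_div_mem_padicPlace {b t : Qb} (hb : b ∈ padicPlace ℓ) (ht : t ≠ 0) :
    (zetaOrbit hζ hm).tr (b * t) / t ∈ padicPlace ℓ := by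
  unfold OrbitData.tr
  rw [Finset.sum_div]
  refine Subring.sum_mem (padicPlace ℓ).toSubring fun z _ => ?_
  set g := (zetaOrbit hζ hm).rep z
  rw [smul_mul', mul_div_assoc]
  refine (padicPlace ℓ).mul_mem _ _ (smul_mem_padicPlace ℓ g hb) ?_
  rw [mem_padicPlace_iff_padicAbs, map_div₀, show g • t = (g : GQ) t from rfl,
    padicAbs_apply_of_mem_decompositionSubgroup ℓ g.2,
    div_self (fun h => ht ((map_eq_zero _).mp h))]

/-- An element of `Λ_ζ` one of whose `Λ₁`-coordinates is a unit is a unit. -/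
theorem isUnit_of_coeff_isUnit (c : ℕ → Qb) (hc : ∀ i, c i ∈ Lam1 ℓ) {j : ℕ}
    (hj : j < dZ hζ hm) (hju : padicAbs ℓ (c j) = 1)
    {x : LamZ ℓ ζ} (hx : (x : Qb) = ∑ i ∈ Finset.range (dZ hζ hm), c i * ζ ^ i) : IsUnit x := by
  have hcfix : ∀ i (g : ↥(DP ℓ)), g • c i = c i := fun i g => (hc i).2 g.1 g.2
  have h1 : (zetaOrbit hζ hm).tr (bdZ hζ hm j * (x : Qb)) = c j := by
    rw [hx]
    exact (zetaOrbit hζ hm).tr_bd_mul_sum c hcfix hj
  have hcj0 : c j ≠ 0 := by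
    intro h
    rw [h, map_zero] at hju
    exact zero_ne_one hju
  have hx0 : (x : Qb) ≠ 0 := by
    intro h
    rw [h, mul_zero] at h1
    have : (zetaOrbit hζ hm).tr 0 = 0 := by
      unfold OrbitData.tr
      simp
    rw [this] at h1
    exact hcj0 h1.symm
  have h2 : c j / (x : Qb) ∈ padicPlace ℓ := by
    rw [← h1]
    exact tr_mul_div_mem_padicPlace hζ hm (bdZ_mem_padicPlace hζ hm j) hx0
  have h3 : (c j)⁻¹ ∈ padicPlace ℓ := by
    rw [mem_padicPlace_iff_padicAbs, map_inv₀, hju, inv_one]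
  have h4 : ((x : Qb))⁻¹ ∈ padicPlace ℓ := by
    have : ((x : Qb))⁻¹ = c j / (x : Qb) * (c j)⁻¹ := by
      field_simp
    rw [this]
    exact (padicPlace ℓ).mul_mem _ _ h2 h3
  have h5 : ((x : Qb))⁻¹ ∈ LamZ ℓ ζ := ⟨h4, fun σ hσ => by rw [map_inv₀, x.2.2 σ hσ]⟩
  exact IsUnit.of_mul_eq_one ⟨_, h5⟩ (Subtype.ext (mul_inv_cancel₀ hx0))

/-- **Every nonzero element of `Λ_ζ` is a power of `ℓ` times a unit.** -/
theorem exists_pow_mul_unit_LamZ {x : LamZ ℓ ζ} (hx : x ≠ 0) :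
    ∃ (n : ℕ) (u : LamZ ℓ ζ), IsUnit u ∧ x = (ℓ : LamZ ℓ ζ) ^ n * u := by
  classical
  obtain ⟨c, hc, hxe⟩ := exists_lam1_coeffs hζ hm x.2
  have hℓ0 : (ℓ : Qb) ≠ 0 := by exact_mod_cast hℓ.out.ne_zero
  set S := (Finset.range (dZ hζ hm)).filter fun i => c i ≠ 0 with hS
  have hSne : S.Nonempty := by
    by_contra hcon
    rw [Finset.not_nonempty_iff_eq_empty] at hcon
    apply hx
    apply Subtype.ext
    rw [hxe]
    refine Finset.sum_eq_zero fun i hi => ?_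
    have : c i = 0 := by
      by_contra h
      have : i ∈ S := Finset.mem_filter.mpr ⟨hi, h⟩
      rw [hcon] at this
      exact absurd this (Finset.notMem_empty _)
    rw [this, zero_mul]
  obtain ⟨j, hjS, hjmax⟩ := Finset.exists_max_image S (fun i => padicAbs ℓ (c i)) hSne
  have hj : j < dZ hζ hm := Finset.mem_range.mp (Finset.mem_filter.mp hjS).1
  have hcj0 : c j ≠ 0 := (Finset.mem_filter.mp hjS).2
  have hcj0' : (⟨c j, hc j⟩ : Lam1 ℓ) ≠ 0 := fun h => hcj0 (congrArg Subtype.val h)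
  obtain ⟨n, u, hu, hcu⟩ := exists_pow_mul_unit ℓ hcj0'
  have habsj : padicAbs ℓ (c j) = padicAbs ℓ (ℓ : Qb) ^ n := by
    have h1 : c j = (ℓ : Qb) ^ n * (u : Qb) := by
      have := congrArg (fun t : Lam1 ℓ => (t : Qb)) hcu
      simpa using this
    rw [h1, map_mul, map_pow, padicAbs_eq_one_of_isUnit ℓ hu, mul_one]
  have hpos : 0 < padicAbs ℓ (ℓ : Qb) ^ n := pow_pos ((padicAbs ℓ).pos hℓ0) n
  -- the divided coefficients
  have hcK : ∀ i, c i / (ℓ : Qb) ^ n ∈ K1 ℓ := fun i =>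
    (K1 ℓ).div_mem (lam1_le_K1 ℓ (hc i)) (pow_mem (natCast_mem_K1 ℓ ℓ) n)
  set c' : ℕ → Qb := fun i => if i < dZ hζ hm then c i / (ℓ : Qb) ^ n else 0 with hc'
  have habs' : ∀ i, padicAbs ℓ (c' i) ≤ 1 := by
    intro i
    simp only [hc']
    split_ifs with hid
    · rw [map_div₀, map_pow, div_le_one hpos]
      by_cases hi : i ∈ S
      · exact (hjmax i hi).trans habsj.le
      · have : c i = 0 := by
          by_contra h
          exact hi (Finset.mem_filter.mpr ⟨Finset.mem_range.mpr hid, h⟩)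
        rw [this, map_zero]
        exact hpos.le
    · rw [map_zero]
      exact zero_le_one
  have hc'L : ∀ i, c' i ∈ Lam1 ℓ := by
    intro i
    refine mem_Lam1_of_norm_le_one ℓ ?_ (habs' i)
    simp only [hc']
    split_ifs
    · exact hcK i
    · exact zero_mem _
  have hc'j : padicAbs ℓ (c' j) = 1 := by
    simp only [hc', if_pos hj]
    rw [map_div₀, map_pow, habsj, div_self hpos.ne']
  have hpow0 : (ℓ : Qb) ^ n ≠ 0 := pow_ne_zero n hℓ0
  have hsum : (x : Qb) / (ℓ : Qb) ^ n = ∑ i ∈ Finset.range (dZ hζ hm), c' i * ζ ^ i := by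
    rw [hxe, Finset.sum_div]
    refine Finset.sum_congr rfl fun i hi => ?_
    simp only [hc', if_pos (Finset.mem_range.mp hi)]
    ring
  have hx'P : (x : Qb) / (ℓ : Qb) ^ n ∈ padicPlace ℓ := by
    rw [hsum]
    refine Subring.sum_mem (padicPlace ℓ).toSubring fun i _ => ?_
    exact (padicPlace ℓ).mul_mem _ _ (hc'L i).1
      ((padicPlace ℓ).pow_mem (mem_padicPlace_of_pow_eq_one hζ hm hζ) i)
  have hx'L : (x : Qb) / (ℓ : Qb) ^ n ∈ LamZ ℓ ζ :=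
    ⟨hx'P, fun σ hσ => by rw [map_div₀, map_pow, map_natCast, x.2.2 σ hσ]⟩
  refine ⟨n, ⟨_, hx'L⟩, isUnit_of_coeff_isUnit hζ hm c' hc'L hj hc'j (x := ⟨_, hx'L⟩) hsum, ?_⟩
  apply Subtype.ext
  simp only [Subring.coe_mul, Subring.coe_pow, Subring.coe_natCast]
  field_simp

/-- The absolute value of a unit of `Λ_ζ` is `1`. -/
theorem padicAbs_eq_one_of_isUnit_LamZ {x : LamZ ℓ ζ} (hx : IsUnit x) :
    padicAbs ℓ (x : Qb) = 1 := by
  obtain ⟨u, rfl⟩ := hx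
  have h1 : (u : LamZ ℓ ζ) * (↑u⁻¹ : LamZ ℓ ζ) = 1 := u.mul_inv
  have h2 := congrArg (fun t : LamZ ℓ ζ => padicAbs ℓ (t : Qb)) h1
  simp only [Subring.coe_mul, Subring.coe_one, map_mul, map_one] at h2
  have h3 : padicAbs ℓ ((↑u⁻¹ : LamZ ℓ ζ) : Qb) ≤ 1 :=
    (mem_padicPlace_iff_padicAbs ℓ).mp (↑u⁻¹ : LamZ ℓ ζ).2.1
  have h4 : padicAbs ℓ ((u : LamZ ℓ ζ) : Qb) ≤ 1 :=
    (mem_padicPlace_iff_padicAbs ℓ).mp (u : LamZ ℓ ζ).2.1
  have h5 : (0 : ℝ) ≤ padicAbs ℓ ((u : LamZ ℓ ζ) : Qb) := (padicAbs ℓ).nonneg _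
  have h6 : (0 : ℝ) ≤ padicAbs ℓ ((↑u⁻¹ : LamZ ℓ ζ) : Qb) := (padicAbs ℓ).nonneg _
  nlinarith

/-- `ℓ` is irreducible in `Λ_ζ` (`Λ_ζ / Λ₁` is unramified). -/
theorem irreducible_natCast_LamZ : Irreducible (ℓ : LamZ ℓ ζ) := by
  refine ⟨not_isUnit_natCast_LamZ ℓ ζ, fun a b hab => ?_⟩
  have ha0 : a ≠ 0 := by
    rintro rfl
    rw [zero_mul] at hab
    exact natCast_ne_zero_LamZ ℓ ζ hab
  have hb0 : b ≠ 0 := by
    rintro rfl
    rw [mul_zero] at hab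
    exact natCast_ne_zero_LamZ ℓ ζ hab
  obtain ⟨i, u, hu, rfl⟩ := exists_pow_mul_unit_LamZ hζ hm ha0
  obtain ⟨j, v, hv, rfl⟩ := exists_pow_mul_unit_LamZ hζ hm hb0
  have h0 : (ℓ : LamZ ℓ ζ) ^ (i + j) * (u * v)
      = (ℓ : LamZ ℓ ζ) ^ i * u * ((ℓ : LamZ ℓ ζ) ^ j * v) := by
    ring
  have h1 : (ℓ : LamZ ℓ ζ) ^ 1 * 1 = (ℓ : LamZ ℓ ζ) ^ (i + j) * (u * v) := by
    rw [pow_one, mul_one, h0]
    exact hab
  have h2 := congrArg (fun t : LamZ ℓ ζ => padicAbs ℓ (t : Qb)) h1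
  simp only [Subring.coe_mul, Subring.coe_pow, Subring.coe_natCast, map_mul,
    map_pow, padicAbs_eq_one_of_isUnit_LamZ hζ hm hu,
    padicAbs_eq_one_of_isUnit_LamZ hζ hm hv, mul_one] at h2
  have hlt : padicAbs ℓ (ℓ : Qb) < 1 := padicAbs_natCast_lt_one ℓ
  have hpos : 0 < padicAbs ℓ (ℓ : Qb) := (padicAbs ℓ).pos (by exact_mod_cast hℓ.out.ne_zero)
  have hij : 1 = i + j := pow_right_injective₀ hpos hlt.ne h2
  rcases Nat.eq_zero_or_pos i with hi | hi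
  · left
    rw [hi, pow_zero, one_mul]
    exact hu
  · right
    have hj : j = 0 := by omega
    rw [hj, pow_zero, one_mul]
    exact hv

/-- **`Λ_ζ` is a discrete valuation ring.** -/
theorem isDVR_LamZ : IsDiscreteValuationRing (LamZ ℓ ζ) :=
  IsDiscreteValuationRing.ofHasUnitMulPowIrreducibleFactorization
    ⟨(ℓ : LamZ ℓ ζ), irreducible_natCast_LamZ hζ hm, fun {x} hx => by
      obtain ⟨n, u, hu, rfl⟩ := exists_pow_mul_unit_LamZ hζ hm hx
      obtain ⟨u', rfl⟩ := hu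
      exact ⟨n, u', rfl⟩⟩

/-- **The maximal ideal of `Λ_ζ` is generated by `ℓ`.** -/
theorem maximalIdeal_LamZ :
    IsLocalRing.maximalIdeal (LamZ ℓ ζ) = Ideal.span {(ℓ : LamZ ℓ ζ)} :=
  haveI := isDVR_LamZ hζ hm
  (IsDiscreteValuationRing.irreducible_iff_uniformizer _).mp (irreducible_natCast_LamZ hζ hm)

/-- A non-unit of `Λ_ζ` is divisible by `ℓ`. -/
theorem natCast_dvd_of_not_isUnit_LamZ {x : LamZ ℓ ζ} (hx : ¬ IsUnit x) :
    (ℓ : LamZ ℓ ζ) ∣ x := by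
  have h1 : x ∈ IsLocalRing.maximalIdeal (LamZ ℓ ζ) := (IsLocalRing.mem_maximalIdeal _).mpr hx
  rw [maximalIdeal_LamZ hζ hm] at h1
  exact Ideal.mem_span_singleton.mp h1

/-- A non-unit of `Λ_ζ` has absolute value at most `|ℓ|`. -/
theorem padicAbs_le_of_not_isUnit_LamZ {x : LamZ ℓ ζ} (hx : ¬ IsUnit x) :
    padicAbs ℓ (x : Qb) ≤ padicAbs ℓ (ℓ : Qb) := by
  obtain ⟨y, rfl⟩ := natCast_dvd_of_not_isUnit_LamZ hζ hm hx
  simp only [Subring.coe_mul, Subring.coe_natCast, map_mul]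
  exact mul_le_of_le_one_right ((padicAbs ℓ).nonneg _)
    ((mem_padicPlace_iff_padicAbs ℓ).mp y.2.1)

end Fermat.Agent.FF2.Base
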