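import Mathlib
import Fermat.Agent.FF2.Base.LamZDvr

/-!
# MOONSHOT S19, node (BASE-2): the inclusion `Λ_ζ → P` is a local homomorphism (helper5)

`lamZToP ℓ ζ : LamZ ℓ ζ →+* ↥(padicPlace ℓ)` is the inclusion; units of `Λ_ζ` are exactly the
elements of absolute value `1` (`isUnit_iff_padicAbs_eq_one_LamZ`), so the inclusion is a local
homomorphism (`isLocalHom_lamZToP`) and induces `resLamZToP` on residue fields.  For `ζ ^ m = 1`,
`ℓ ∤ m`, non-units of `Λ_ζ` are multiples of `ℓ` (`LamZDvr.lean`), hence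
`lamZToP x ∈ span {ℓ}` for `x` in the maximal ideal.
-/

set_option autoImplicit false
set_option linter.unusedSectionVars false
set_option linter.style.haveILetI false

namespace Fermat.Agent.FF2.Base

open Fermat.Agent.TW.Hopf.DecompRing Fermat.Agent.S55 Fermat.Agent.FF2.Desc GaloisRep

local notation "Qb" => AlgebraicClosure ℚ
local notation "GQ" => (AlgebraicClosure ℚ ≃ₐ[ℚ] AlgebraicClosure ℚ)

variable (ℓ : ℕ) [hℓ : Fact ℓ.Prime] (ζ : Qb)

/-- The inclusion `Λ_ζ → P`. -/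
noncomputable def lamZToP : LamZ ℓ ζ →+* ↥(padicPlace ℓ) where
  toFun x := ⟨(x : Qb), x.2.1⟩
  map_one' := rfl
  map_mul' _ _ := rfl
  map_zero' := rfl
  map_add' _ _ := rfl

@[simp] theorem coe_lamZToP (x : LamZ ℓ ζ) : ((lamZToP ℓ ζ x : ↥(padicPlace ℓ)) : Qb) = (x : Qb) :=
  rfl

theorem lamZToP_injective : Function.Injective (lamZToP ℓ ζ) := fun x y h =>
  Subtype.ext (congrArg (fun t : ↥(padicPlace ℓ) => (t : Qb)) h)

variable {ℓ ζ}

/-- Units of `P` are the elements of absolute value one. -/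
theorem isUnit_padicPlace_iff (x : ↥(padicPlace ℓ)) : IsUnit x ↔ padicAbs ℓ (x : Qb) = 1 := by
  constructor
  · rintro ⟨u, rfl⟩
    have h1 : (u : ↥(padicPlace ℓ)) * (↑u⁻¹ : ↥(padicPlace ℓ)) = 1 := u.mul_inv
    have h2 := congrArg (fun t : ↥(padicPlace ℓ) => padicAbs ℓ (t : Qb)) h1
    simp only [MulMemClass.coe_mul, OneMemClass.coe_one, map_mul, map_one] at h2
    have h3 : padicAbs ℓ ((↑u⁻¹ : ↥(padicPlace ℓ)) : Qb) ≤ 1 :=
      (mem_padicPlace_iff_padicAbs ℓ).mp (↑u⁻¹ : ↥(padicPlace ℓ)).2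
    have h4 : padicAbs ℓ ((u : ↥(padicPlace ℓ)) : Qb) ≤ 1 :=
      (mem_padicPlace_iff_padicAbs ℓ).mp (u : ↥(padicPlace ℓ)).2
    have h5 : (0 : ℝ) ≤ padicAbs ℓ ((u : ↥(padicPlace ℓ)) : Qb) := (padicAbs ℓ).nonneg _
    have h6 : (0 : ℝ) ≤ padicAbs ℓ ((↑u⁻¹ : ↥(padicPlace ℓ)) : Qb) := (padicAbs ℓ).nonneg _
    nlinarith
  · intro h
    have hx0 : (x : Qb) ≠ 0 := by
      intro h0
      rw [h0, map_zero] at h
      exact zero_ne_one h
    have hinv : ((x : Qb))⁻¹ ∈ padicPlace ℓ := by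
      rw [mem_padicPlace_iff_padicAbs, map_inv₀, h, inv_one]
    exact IsUnit.of_mul_eq_one ⟨_, hinv⟩ (Subtype.ext (mul_inv_cancel₀ hx0))

/-- Units of `Λ_ζ` are the elements of absolute value one. -/
theorem isUnit_iff_padicAbs_eq_one_LamZ (x : LamZ ℓ ζ) : IsUnit x ↔ padicAbs ℓ (x : Qb) = 1 := by
  constructor
  · intro hx
    have := (isUnit_padicPlace_iff (lamZToP ℓ ζ x)).mp (hx.map (lamZToP ℓ ζ))
    simpa using this
  · intro h
    have hx0 : (x : Qb) ≠ 0 := by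
      intro h0
      rw [h0, map_zero] at h
      exact zero_ne_one h
    have hinv : ((x : Qb))⁻¹ ∈ LamZ ℓ ζ :=
      ⟨by rw [mem_padicPlace_iff_padicAbs, map_inv₀, h, inv_one],
        fun σ hσ => by rw [map_inv₀, x.2.2 σ hσ]⟩
    exact IsUnit.of_mul_eq_one ⟨_, hinv⟩ (Subtype.ext (mul_inv_cancel₀ hx0))

/-- The inclusion `Λ_ζ → P` reflects units. -/
theorem isUnit_of_isUnit_lamZToP {x : LamZ ℓ ζ} (hx : IsUnit (lamZToP ℓ ζ x)) : IsUnit x := by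
  have h1 : padicAbs ℓ ((lamZToP ℓ ζ x : ↥(padicPlace ℓ)) : Qb) = 1 :=
    (isUnit_padicPlace_iff (lamZToP ℓ ζ x)).mp hx
  rw [coe_lamZToP] at h1
  exact (isUnit_iff_padicAbs_eq_one_LamZ x).mpr h1

instance isLocalHom_lamZToP : IsLocalHom (lamZToP ℓ ζ) :=
  ⟨fun _ hx => isUnit_of_isUnit_lamZToP hx⟩

/-- Non-units of `Λ_ζ` are non-units of `P`, i.e. have absolute value `< 1`. -/
theorem padicAbs_lt_one_of_not_isUnit_LamZ {x : LamZ ℓ ζ} (hx : ¬ IsUnit x) :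
    padicAbs ℓ (x : Qb) < 1 :=
  lt_of_le_of_ne ((mem_padicPlace_iff_padicAbs ℓ).mp x.2.1)
    fun h => hx ((isUnit_iff_padicAbs_eq_one_LamZ x).mpr h)

theorem lamZToP_mem_maximalIdeal {x : LamZ ℓ ζ} (hx : x ∈ IsLocalRing.maximalIdeal (LamZ ℓ ζ)) :
    lamZToP ℓ ζ x ∈ IsLocalRing.maximalIdeal ↥(padicPlace ℓ) := by
  rw [IsLocalRing.mem_maximalIdeal] at hx ⊢
  exact fun h => hx (isUnit_of_isUnit_lamZToP h)

/-- The induced map on residue fields. -/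
noncomputable def resLamZToP :
    IsLocalRing.ResidueField (LamZ ℓ ζ) →+* IsLocalRing.ResidueField ↥(padicPlace ℓ) :=
  IsLocalRing.ResidueField.map (lamZToP ℓ ζ)

theorem resLamZToP_residue (x : LamZ ℓ ζ) :
    resLamZToP (IsLocalRing.residue (LamZ ℓ ζ) x)
      = IsLocalRing.residue ↥(padicPlace ℓ) (lamZToP ℓ ζ x) :=
  rfl

section Zeta

variable {m : ℕ} (hζ : ζ ^ m = 1) (hm : ¬ ℓ ∣ m)
include hζ hm

/-- For `ζ ^ m = 1`, `ℓ ∤ m`: the image in `P` of the maximal ideal of `Λ_ζ` lies in `ℓ P`. -/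
theorem lamZToP_mem_span_natCast {x : LamZ ℓ ζ}
    (hx : x ∈ IsLocalRing.maximalIdeal (LamZ ℓ ζ)) :
    lamZToP ℓ ζ x ∈ Ideal.span {((ℓ : ℕ) : ↥(padicPlace ℓ))} := by
  rw [IsLocalRing.mem_maximalIdeal] at hx
  obtain ⟨y, rfl⟩ := natCast_dvd_of_not_isUnit_LamZ hζ hm hx
  rw [map_mul, map_natCast]
  exact Ideal.mul_mem_right _ _ (Ideal.mem_span_singleton_self _)

end Zeta

end Fermat.Agent.FF2.Base
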