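import Mathlib
import Fermat.Agent.FF2.Base.LamZLocal

/-!
# MOONSHOT S19, node (BASE-2): valuation form of `𝔪_{Λ_ζ} ⊆ ℓ P` (helper5)

In the `ValuationSubring.valuation` dialect of `P = padicPlace ℓ` (helper23's `FiniteCongr` /
`AddFinite`): the dictionary `padicAbs ℓ x ≤ padicAbs ℓ y ↔ P.valuation x ≤ P.valuation y`, and,
for `ζ ^ m = 1`, `ℓ ∤ m`: every element of the maximal ideal of `Λ_ζ` has valuation at most that
of `ℓ` (`valuation_lamZToP_le`, also with the `Algebra (LamZ ℓ ζ) ↥P` structure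
`algebraLamZP := (lamZToP ℓ ζ).toAlgebra`, a `def`, to be installed by `letI`).
-/

set_option autoImplicit false
set_option linter.unusedSectionVars false
set_option linter.style.haveILetI false

namespace Fermat.Agent.FF2.Base

open Fermat.Agent.TW.Hopf.DecompRing Fermat.Agent.S55 Fermat.Agent.FF2.Desc GaloisRep

local notation "Qb" => AlgebraicClosure ℚ
local notation "GQ" => (AlgebraicClosure ℚ ≃ₐ[ℚ] AlgebraicClosure ℚ)

variable {ℓ : ℕ} [hℓ : Fact ℓ.Prime] {ζ : Qb}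

/-- Dictionary between the real absolute value `padicAbs ℓ` and the valuation of the valuation
subring `padicPlace ℓ`. -/
theorem valuation_le_iff_padicAbs_le (x y : Qb) :
    (padicPlace ℓ).valuation x ≤ (padicPlace ℓ).valuation y ↔ padicAbs ℓ x ≤ padicAbs ℓ y := by
  by_cases hy : y = 0
  · subst hy
    rw [map_zero, map_zero, le_zero_iff, map_eq_zero]
    constructor
    · rintro rfl
      rw [map_zero]
    · intro h
      exact (map_eq_zero (padicAbs ℓ)).mp (le_antisymm h ((padicAbs ℓ).nonneg x))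
  · have hvy : (padicPlace ℓ).valuation y ≠ 0 := (map_ne_zero _).mpr hy
    have hay : 0 < padicAbs ℓ y := (padicAbs ℓ).pos hy
    have h1 : (padicPlace ℓ).valuation x ≤ (padicPlace ℓ).valuation y ↔
        (padicPlace ℓ).valuation (x / y) ≤ 1 := by
      rw [map_div₀, div_le_one₀ (zero_lt_iff.mpr hvy)]
    rw [h1, (padicPlace ℓ).valuation_le_one_iff, mem_padicPlace_iff_padicAbs, map_div₀,
      div_le_one hay]

theorem valuation_lt_iff_padicAbs_lt (x y : Qb) :
    (padicPlace ℓ).valuation x < (padicPlace ℓ).valuation y ↔ padicAbs ℓ x < padicAbs ℓ y := by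
  rw [← not_le, ← not_le, valuation_le_iff_padicAbs_le]

theorem valuation_le_one_iff_padicAbs (x : Qb) :
    (padicPlace ℓ).valuation x ≤ 1 ↔ padicAbs ℓ x ≤ 1 := by
  rw [(padicPlace ℓ).valuation_le_one_iff, mem_padicPlace_iff_padicAbs]

theorem valuation_lt_one_iff_padicAbs (x : Qb) :
    (padicPlace ℓ).valuation x < 1 ↔ padicAbs ℓ x < 1 := by
  have := valuation_lt_iff_padicAbs_lt (ℓ := ℓ) x 1
  rwa [map_one, map_one] at this

/-- The valuation of `ℓ` is `< 1`. -/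
theorem valuation_natCast_lt_one : (padicPlace ℓ).valuation ((ℓ : ℕ) : Qb) < 1 :=
  (valuation_lt_one_iff_padicAbs _).mpr (padicAbs_natCast_lt_one ℓ)

/-- Non-units of `Λ_ζ` have valuation `< 1`. -/
theorem valuation_lt_one_of_not_isUnit_LamZ {x : LamZ ℓ ζ} (hx : ¬ IsUnit x) :
    (padicPlace ℓ).valuation (x : Qb) < 1 :=
  (valuation_lt_one_iff_padicAbs _).mpr (padicAbs_lt_one_of_not_isUnit_LamZ hx)

/-- The `Λ_ζ`-algebra structure of `P` given by the inclusion (a `def`: install with `letI`). -/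
@[reducible] noncomputable def algebraLamZP (ℓ : ℕ) [Fact ℓ.Prime] (ζ : Qb) :
    Algebra (LamZ ℓ ζ) ↥(padicPlace ℓ) :=
  (lamZToP ℓ ζ).toAlgebra

theorem algebraMap_algebraLamZP (x : LamZ ℓ ζ) :
    (letI := algebraLamZP ℓ ζ; algebraMap (LamZ ℓ ζ) ↥(padicPlace ℓ) x) = lamZToP ℓ ζ x :=
  rfl

/-- `Λ_ζ → P → ℚ̄` is a scalar tower. -/
theorem isScalarTower_LamZ_P :
    letI := algebraLamZP ℓ ζ
    IsScalarTower (LamZ ℓ ζ) ↥(padicPlace ℓ) Qb :=
  letI := algebraLamZP ℓ ζ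
  IsScalarTower.of_algebraMap_eq fun _ => rfl

section Zeta

variable {m : ℕ} (hζ : ζ ^ m = 1) (hm : ¬ ℓ ∣ m)
include hζ hm

/-- **`𝔪_{Λ_ζ} ⊆ ℓ P` in valuation form** (`hW` of helper23's `x_add_congruence_finite`). -/
theorem valuation_le_of_mem_maximalIdeal_LamZ {x : LamZ ℓ ζ}
    (hx : x ∈ IsLocalRing.maximalIdeal (LamZ ℓ ζ)) :
    (padicPlace ℓ).valuation (x : Qb) ≤ (padicPlace ℓ).valuation ((ℓ : ℕ) : Qb) :=
  (valuation_le_iff_padicAbs_le _ _).mpr
    (padicAbs_le_of_not_isUnit_LamZ hζ hm ((IsLocalRing.mem_maximalIdeal _).mp hx))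

theorem valuation_lamZToP_le {x : LamZ ℓ ζ}
    (hx : x ∈ IsLocalRing.maximalIdeal (LamZ ℓ ζ)) :
    (padicPlace ℓ).valuation ((lamZToP ℓ ζ x : ↥(padicPlace ℓ)) : Qb)
      ≤ (padicPlace ℓ).valuation ((ℓ : ℕ) : Qb) :=
  valuation_le_of_mem_maximalIdeal_LamZ hζ hm hx

/-- The same with `algebraMap` for the algebra structure `algebraLamZP`. -/
theorem valuation_algebraMap_le :
    letI := algebraLamZP ℓ ζ
    ∀ w ∈ IsLocalRing.maximalIdeal (LamZ ℓ ζ),
      (padicPlace ℓ).valuation ((algebraMap (LamZ ℓ ζ) ↥(padicPlace ℓ) w : ↥(padicPlace ℓ)) : Qb)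
        ≤ (padicPlace ℓ).valuation ((ℓ : ℕ) : Qb) :=
  fun _ hw => valuation_lamZToP_le hζ hm hw

end Zeta

end Fermat.Agent.FF2.Base
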