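import Mathlib
import Fermat.Agent.FF2.Base.LamZLocal
import Fermat.Agent.FF2.Disc.Galois
import Fermat.Agent.FF2.Disc.Recenter
import Fermat.Agent.Val.RiemannPkgBar

/-!
# MOONSHOT S19, node (RAT-COEFF): rationality of the Taylor coefficients (helper5)

`F̄_N = modularFunctionFieldBar N`, `S` any `Red.RedSetup` of `F̄_N` at a valuation subring `A` of
`ℚ̄`, `C : Disc.DiscCoord S Z` a disc coordinate.

* `coeff_apply_eq` : if `σ ∈ G_ℚ` fixes (through `arithmeticGalois`) the centre `C.P₀`, the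
  coordinate `C.t` and the function `h`, then `σ (C.coeff h n) = C.coeff h n`;
* `coeff_mem_and_fixed` : for a set `Γ` of such `σ` and `h ∈ C.ring`:
  `C.coeff h n ∈ A ∧ ∀ σ ∈ Γ, σ (C.coeff h n) = C.coeff h n`;
* `coeff_mem_LamZ` : at `A = padicPlace ℓ`, `Γ = GamZ ℓ ζ`: `C.coeff h n ∈ LamZ ℓ ζ`;
* `exists_lamZ_eq_coeff` : `∃ w : LamZ ℓ ζ, ((lamZToP ℓ ζ w : ↥(padicPlace ℓ)) : ℚ̄) = C.coeff h n`,
  literally the `rat` field of helper15's `SF.GeoData S (lamZToP ℓ ζ) Z ι` (the `hW` of F5-SF (A)).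
-/

set_option autoImplicit false
set_option linter.unusedSectionVars false

namespace Fermat.Agent.FF2.Base

open AlgebraicCurve ModularCurve Fermat.Agent.Red Fermat.Agent.X0 Fermat.Agent.FF2.Disc
  Fermat.Agent.Val

local notation "Qb" => AlgebraicClosure ℚ
local notation "GQ" => (AlgebraicClosure ℚ ≃ₐ[ℚ] AlgebraicClosure ℚ)

section General

variable {N : ℕ} {k Ft : Type*} [Field k] [Field Ft] [Algebra k Ft]
  {A : ValuationSubring Qb} {π : A →+* k}
  {S : RedSetup (F := modularFunctionFieldBar N) (Ft := Ft) A π}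
  {Z : Set (Place Qb (modularFunctionFieldBar N))} (C : DiscCoord S Z)

/-- **Rationality of one Taylor coefficient**: `σ` fixing the centre, the coordinate and the
function fixes the Taylor coefficients. -/
theorem coeff_apply_eq {σ : GQ}
    (hP : arithmeticGalois (modularFunctionFieldFull N) σ • C.P₀ = C.P₀)
    (ht : arithmeticGalois (modularFunctionFieldFull N) σ • C.t = C.t)
    {h : modularFunctionFieldBar N}
    (hh : arithmeticGalois (modularFunctionFieldFull N) σ • h = h) (n : ℕ) :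
    σ (C.coeff h n) = C.coeff h n :=
  taylorCoeff_fixed (arithmeticGalois (modularFunctionFieldFull N) σ) hP ht hh n

/-- Values of fixed functions at the (fixed) centre are fixed. -/
theorem evalAt_apply_eq {σ : GQ} {P : Place Qb (modularFunctionFieldBar N)}
    (hP : arithmeticGalois (modularFunctionFieldFull N) σ • P = P)
    {h : modularFunctionFieldBar N}
    (hh : arithmeticGalois (modularFunctionFieldFull N) σ • h = h) :
    σ (evalAt P h) = evalAt P h :=
  evalAt_fixed (arithmeticGalois (modularFunctionFieldFull N) σ) hP hh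

variable [NeZero N]

/-- **(RAT-COEFF)**: the Taylor coefficients of a `Γ`-fixed function of the disc ring, at a disc
coordinate with `Γ`-fixed centre and coordinate, lie in `A` and are `Γ`-fixed. -/
theorem coeff_mem_and_fixed (Γ : Set GQ)
    (hC : ∀ σ ∈ Γ, arithmeticGalois (modularFunctionFieldFull N) σ • C.P₀ = C.P₀ ∧
      arithmeticGalois (modularFunctionFieldFull N) σ • C.t = C.t)
    {h : modularFunctionFieldBar N} (hh : h ∈ C.ring)
    (hfix : ∀ σ ∈ Γ, arithmeticGalois (modularFunctionFieldFull N) σ • h = h) (n : ℕ) :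
    C.coeff h n ∈ A ∧ ∀ σ ∈ Γ, σ (C.coeff h n) = C.coeff h n :=
  ⟨C.ring_coeff_mem (riemannPkg_bar N) hh n,
    fun σ hσ => coeff_apply_eq C (hC σ hσ).1 (hC σ hσ).2 (hfix σ hσ) n⟩

end General

section LamZ

variable {N : ℕ} [NeZero N] {ℓ : ℕ} [hℓ : Fact ℓ.Prime] {ζ : Qb}
  {k Ft : Type*} [Field k] [Field Ft] [Algebra k Ft] {π : ↥(padicPlace ℓ) →+* k}
  {S : RedSetup (F := modularFunctionFieldBar N) (Ft := Ft) (padicPlace ℓ) π}
  {Z : Set (Place Qb (modularFunctionFieldBar N))} (C : DiscCoord S Z)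

/-- **(RAT-COEFF) at the level ring**: Taylor coefficients of `Γ_ζ`-fixed functions at
`Γ_ζ`-fixed disc coordinates lie in `Λ_ζ`. -/
theorem coeff_mem_LamZ
    (hC : ∀ σ ∈ GamZ ℓ ζ, arithmeticGalois (modularFunctionFieldFull N) σ • C.P₀ = C.P₀ ∧
      arithmeticGalois (modularFunctionFieldFull N) σ • C.t = C.t)
    {h : modularFunctionFieldBar N} (hh : h ∈ C.ring)
    (hfix : ∀ σ ∈ GamZ ℓ ζ, arithmeticGalois (modularFunctionFieldFull N) σ • h = h) (n : ℕ) :
    C.coeff h n ∈ LamZ ℓ ζ :=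
  coeff_mem_and_fixed C (GamZ ℓ ζ : Set GQ) hC hh hfix n

/-- The `rat` field of helper15's `SF.GeoData S (lamZToP ℓ ζ) Z ι`, for one function and one
disc. -/
theorem exists_lamZ_eq_coeff
    (hC : ∀ σ ∈ GamZ ℓ ζ, arithmeticGalois (modularFunctionFieldFull N) σ • C.P₀ = C.P₀ ∧
      arithmeticGalois (modularFunctionFieldFull N) σ • C.t = C.t)
    {h : modularFunctionFieldBar N} (hh : h ∈ C.ring)
    (hfix : ∀ σ ∈ GamZ ℓ ζ, arithmeticGalois (modularFunctionFieldFull N) σ • h = h) (n : ℕ) :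
    ∃ w : LamZ ℓ ζ, ((lamZToP ℓ ζ w : ↥(padicPlace ℓ)) : Qb) = C.coeff h n :=
  ⟨⟨C.coeff h n, coeff_mem_LamZ C hC hh hfix n⟩, rfl⟩

/-- Same for functions of the chart ring `B_Z`. -/
theorem exists_lamZ_eq_coeff_of_mem_chart
    (hC : ∀ σ ∈ GamZ ℓ ζ, arithmeticGalois (modularFunctionFieldFull N) σ • C.P₀ = C.P₀ ∧
      arithmeticGalois (modularFunctionFieldFull N) σ • C.t = C.t)
    {h : modularFunctionFieldBar N} (hh : h ∈ S.chart Z)
    (hfix : ∀ σ ∈ GamZ ℓ ζ, arithmeticGalois (modularFunctionFieldFull N) σ • h = h) (n : ℕ) :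
    ∃ w : LamZ ℓ ζ, ((lamZToP ℓ ζ w : ↥(padicPlace ℓ)) : Qb) = C.coeff h n :=
  exists_lamZ_eq_coeff C hC (C.chart_le_ring hh) hfix n

/-- Values at `Γ_ζ`-fixed points of the disc of `Γ_ζ`-fixed functions of the disc ring lie in
`Λ_ζ`. -/
theorem evalAt_mem_LamZ {P : Place Qb (modularFunctionFieldBar N)} (hP : P ∈ C.disc)
    (hPfix : ∀ σ ∈ GamZ ℓ ζ, arithmeticGalois (modularFunctionFieldFull N) σ • P = P)
    {h : modularFunctionFieldBar N} (hh : h ∈ C.ring)
    (hfix : ∀ σ ∈ GamZ ℓ ζ, arithmeticGalois (modularFunctionFieldFull N) σ • h = h) :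
    evalAt P h ∈ LamZ ℓ ζ :=
  ⟨C.ring_evalAt_mem (riemannPkg_bar N) hP hh,
    fun σ hσ => evalAt_apply_eq (hPfix σ hσ) (hfix σ hσ)⟩

end LamZ

end Fermat.Agent.FF2.Base
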