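import Mathlib
import Fermat.Agent.FF2.Base.LambdaZeta
import Fermat.Agent.FF2.Desc.S19Decomp

/-!
# MOONSHOT S19: the SINK at the level `Λ_ζ` (helper5)

Instantiation of helper17's `S19_of_lam_level_order` (which chains helper12's finite Galois descent
`Λ_n → Λ_1`, helper17's dense-pair descent `Λ_1 → ℤ_(ℓ)` and the sink) at the concrete level ring
`W = LamZ ℓ ζ` (`ζ ^ m = 1`, `ℓ ∤ m`), `G' = ` the stabiliser of `ζ` in `D_P`, `θ = ζ`.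

`S19_of_LamZ_order` : the frozen S19 follows from the finiteness of `J₀(p)[ℓ^k]` and ONE
`LamZ ℓ ζ`-subalgebra of `(J₀(p)[ℓ^k] → ℚ̄)` which is finitely generated as a module,
`GamZ ℓ ζ`-equivariant, point-separating and `Δ`-stable.
-/

set_option autoImplicit false
set_option linter.unusedSectionVars false
set_option linter.style.haveILetI false

namespace Fermat.Agent.FF2.Base

open ModularCurve GaloisRep Fermat.Agent.FF2.Order Fermat.Agent.FF2.R2 Fermat.Agent.FF2.Desc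
  Fermat.Agent.S55 Polynomial

local notation "Qb" => AlgebraicClosure ℚ
local notation "GQ" => (AlgebraicClosure ℚ ≃ₐ[ℚ] AlgebraicClosure ℚ)

variable {ℓ : ℕ} [hℓ : Fact ℓ.Prime]

section Orbit

variable {ζ : Qb} {m : ℕ} (hζ : ζ ^ m = 1) (hm : ¬ ℓ ∣ m)
include hζ hm

/-- An element of `G_ℚ` fixing `ζ` fixes every conjugate of `ζ`. -/
theorem apply_apply_eq_of_fix {τ : GQ} (hτ : τ ζ = ζ) (σ : GQ) : τ (σ ζ) = σ ζ := by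
  have hmpos := m_pos hζ hm
  have hζ0 : ζ ≠ 0 := by
    rintro rfl
    rw [zero_pow hmpos.ne'] at hζ
    exact zero_ne_one hζ
  have hord : 0 < orderOf ζ := orderOf_pos_iff.mpr (isOfFinOrder_iff_pow_eq_one.mpr ⟨m, hmpos, hζ⟩)
  have hprim : IsPrimitiveRoot ζ (orderOf ζ) := IsPrimitiveRoot.orderOf ζ
  haveI : NeZero (orderOf ζ) := ⟨hord.ne'⟩
  have h1 : (σ ζ) ^ orderOf ζ = 1 := by rw [← map_pow, pow_orderOf_eq_one, map_one]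
  obtain ⟨i, -, hi⟩ := hprim.eq_pow_of_pow_eq_one h1
  rw [← hi, map_pow, hτ]

/-- The stabiliser of `ζ` in `D_P`, as a subgroup of `D_P`. -/
noncomputable abbrev stabZ (ℓ : ℕ) [Fact ℓ.Prime] (ζ : Qb) : Subgroup ↥(DP ℓ) :=
  MulAction.stabilizer ↥(DP ℓ) ζ

omit hζ hm in
theorem mem_stabZ_iff {τ : ↥(DP ℓ)} : τ ∈ stabZ ℓ ζ ↔ (τ : GQ) ∈ GamZ ℓ ζ :=
  ⟨fun h => ⟨τ.2, h⟩, fun h => h.2⟩

theorem stabZ_normal : (stabZ ℓ ζ).Normal := by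
  refine ⟨fun τ hτ g => ?_⟩
  rw [MulAction.mem_stabilizer_iff] at hτ ⊢
  rw [mul_smul, mul_smul]
  have h1 : τ • (g⁻¹ • ζ) = g⁻¹ • ζ := apply_apply_eq_of_fix hζ hm hτ (g⁻¹ : ↥(DP ℓ))
  rw [h1, smul_inv_smul]

theorem finite_quotient_stabZ : Finite (↥(DP ℓ) ⧸ stabZ ℓ ζ) := by
  have hfin : Finite (MulAction.orbit ↥(DP ℓ) ζ) := by
    refine Set.Finite.subset ((zetaOrbit hζ hm).Z.finite_toSet) ?_
    rintro _ ⟨g, rfl⟩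
    exact (zetaOrbit hζ hm).smul_mem g
  exact Finite.of_equiv _ (MulAction.orbitEquivQuotientStabilizer ↥(DP ℓ) ζ)

/-- `D_P` preserves `Λ_ζ`. -/
theorem smul_mem_LamZ (σ : ↥(DP ℓ)) {w : Qb} (hw : w ∈ LamZ ℓ ζ) : σ • w ∈ LamZ ℓ ζ := by
  haveI := stabZ_normal hζ hm
  refine ⟨smul_mem_padicPlace ℓ σ hw.1, fun τ hτ => ?_⟩
  -- `σ⁻¹ τ σ ∈ Γ_ζ`
  have h1 : σ⁻¹ * ⟨τ, hτ.1⟩ * σ ∈ stabZ ℓ ζ := by
    have h2 : (⟨τ, hτ.1⟩ : ↥(DP ℓ)) ∈ stabZ ℓ ζ := hτ.2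
    have h3 := (stabZ_normal hζ hm).conj_mem _ h2 σ⁻¹
    rwa [inv_inv] at h3
  have h4 := hw.2 _ ((mem_stabZ_iff).mp h1)
  have h5 : (σ : GQ) (((σ⁻¹ * ⟨τ, hτ.1⟩ * σ : ↥(DP ℓ)) : GQ) w) = τ ((σ : GQ) w) := by
    simp
  rw [h4] at h5
  exact h5.symm

/-- `(σ ζ - ζ)⁻¹ ∈ Λ_ζ` when `σ ∈ D_P` moves `ζ`. -/
theorem exists_inv_smul_sub (σ : ↥(DP ℓ)) (hσ : σ ∉ stabZ ℓ ζ) :
    ∃ u ∈ LamZ ℓ ζ, u * (σ • ζ - ζ) = 1 := by
  have hne : σ • ζ ≠ ζ := fun h => hσ h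
  have hpow : (σ • ζ) ^ m = 1 := by rw [← smul_pow', hζ, smul_one]
  have hP := inv_sub_mem_padicPlace hζ hm hpow hne
  have hsub : σ • ζ - ζ ≠ 0 := sub_ne_zero.mpr hne
  refine ⟨(σ • ζ - ζ)⁻¹, ⟨?_, fun τ hτ => ?_⟩, inv_mul_cancel₀ hsub⟩
  · have h1 : (σ • ζ - ζ)⁻¹ = -(ζ - σ • ζ)⁻¹ := by
      rw [← neg_sub, inv_neg]
    rw [h1]
    exact (padicPlace ℓ).neg_mem _ hP
  · have h1 : τ ζ = ζ := hτ.2
    have h2 : τ (σ • ζ) = σ • ζ := apply_apply_eq_of_fix hζ hm h1 (σ : GQ)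
    rw [map_inv₀, map_sub, h1, h2]

end Orbit

section Sink

variable (p : ℕ) [NeZero p] (k : ℕ)
variable {ζ : Qb} {m : ℕ} (hζ : ζ ^ m = 1) (hm : ¬ ℓ ∣ m)
include hζ hm

/-- **The SINK at the level `Λ_ζ`.**  The frozen S19 follows from the finiteness of `J₀(p)[ℓ^k]`
and ONE `Λ_ζ`-subalgebra of `(J₀(p)[ℓ^k] → ℚ̄)` which is finitely generated as a module,
`Γ_ζ`-equivariant, point-separating and `Δ`-stable. -/
theorem S19_of_LamZ_order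
    (hfinV : Finite ↥(Submodule.torsionBy ℤ (JZero p) ((ℓ : ℤ) ^ k)))
    (H : Subalgebra (LamZ ℓ ζ) (↥(Submodule.torsionBy ℤ (JZero p) ((ℓ : ℤ) ^ k)) → Qb))
    (hHfg : (Subalgebra.toSubmodule H).FG)
    (hHequiv : ∀ τ ∈ GamZ ℓ ζ, ∀ f ∈ H, ∀ v, f (torsAct p ℓ k τ v) = τ (f v))
    (hHsep : ∀ v w, v ≠ w → ∃ f ∈ H, f v ≠ f w)
    (hHΔ : IsDeltaStable H) :
    ∃ (H : Type) (_ : CommRing H) (_ : HopfAlgebra (GaloisRep.ratLocalizedAt ℓ) H),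
      Module.Finite (GaloisRep.ratLocalizedAt ℓ) H ∧ Module.Flat (GaloisRep.ratLocalizedAt ℓ) H ∧
      Coalgebra.IsCocomm (GaloisRep.ratLocalizedAt ℓ) H ∧
      ∃ e : WithConv (H →ₐ[GaloisRep.ratLocalizedAt ℓ] AlgebraicClosure ℚ) ≃
          ↥(Submodule.torsionBy ℤ (JZero p) ((ℓ : ℤ) ^ k)),
        (∀ f g, e (f * g) = e f + e g) ∧
        ∀ (σ : AlgebraicClosure ℚ ≃ₐ[ℚ] AlgebraicClosure ℚ)
          (f g : WithConv (H →ₐ[GaloisRep.ratLocalizedAt ℓ] AlgebraicClosure ℚ)),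
          (∀ h : H, g h = σ (f h)) → ((e g : JZero p)) = σ • (e f : JZero p) := by
  haveI := stabZ_normal hζ hm
  haveI := finite_quotient_stabZ hζ hm
  haveI : Fintype (↥(DP ℓ) ⧸ stabZ ℓ ζ) := Fintype.ofFinite _
  refine S19_of_lam_level_order p ℓ k hfinV (stabZ ℓ ζ) (LamZ ℓ ζ) (lam1_le_LamZ ℓ ζ)
    (fun σ _ hw => smul_mem_LamZ hζ hm σ hw)
    (fun τ hτ w hw => hw.2 _ (mem_stabZ_iff.mp hτ))
    (fun w hw hfix => ⟨hw.1, fun σ hσ => hfix ⟨σ, hσ⟩⟩)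
    ζ (zeta_mem_LamZ hζ hm) (exists_inv_smul_sub hζ hm) ?_ H hHfg
    (fun τ hτ f hf v => hHequiv _ (mem_stabZ_iff.mp hτ) f hf v) hHsep hHΔ
  intro s hs h
  refine not_isUnit_natCast_LamZ ℓ ζ (IsUnit.of_mul_eq_one ⟨s, hs⟩ (Subtype.ext ?_))
  simpa using h

end Sink

end Fermat.Agent.FF2.Base
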