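import Mathlib
import Fermat.Agent.FF2.Base.S19LamZ
import Fermat.Agent.FF2.Base.LamZExports
import Fermat.Agent.FF2.R2.FiniteLevel

/-!
# MOONSHOT S19: the GEOMETRY-FACING SINK (helper5)

`S19_of_chart` chains helper22's chart lemma over an algebraic closure
(`chartAlg_isDeltaStable_of_isIntegral`), the exports of `Λ_ζ` (`LamZExports`), and
`S19_of_LamZ_order` (finite Galois descent `Λ_ζ → Λ_1`, dense-pair descent `Λ_1 → ℤ_(ℓ)`, order
criterion).  What the geometry has to deliver for the frozen S19 is exactly: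

* `hfinV` : `J₀(p)[ℓ^k]` is finite;
* a homomorphism `π : V →+ Γ` to a finite group, constant on `Γ_ζ`-orbits, and chart coordinates
  `ξ : V → ι → ℚ̄` (`ι` finite) with values in `P = padicPlace ℓ`, injective on the fibres of `π`,
  `Γ_ζ`-equivariant, satisfying for every `n` an addition congruence modulo `ℓⁿ P` by a polynomial
  with coefficients in `Λ_ζ`, uniformly on each pair of fibres.
-/

set_option autoImplicit false
set_option linter.unusedSectionVars false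
set_option linter.style.haveILetI false

namespace Fermat.Agent.FF2.Base

open ModularCurve GaloisRep Fermat.Agent.FF2.Order Fermat.Agent.FF2.R2 Fermat.Agent.FF2.Desc
  Fermat.Agent.S55 MvPolynomial

local notation "Qb" => AlgebraicClosure ℚ
local notation "GQ" => (AlgebraicClosure ℚ ≃ₐ[ℚ] AlgebraicClosure ℚ)

variable {ℓ : ℕ} [hℓ : Fact ℓ.Prime]

section Equiv

variable (ℓ) (ζ : Qb) {V : Type*} (act : GQ → V → V)

/-- The `Λ_ζ`-subalgebra of `Γ_ζ`-equivariant functions. -/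
def equivSubZ : Subalgebra (LamZ ℓ ζ) (V → Qb) where
  carrier := {f | ∀ τ ∈ GamZ ℓ ζ, ∀ v, f (act τ v) = τ (f v)}
  mul_mem' {a b} ha hb τ hτ v := by
    rw [Pi.mul_apply, Pi.mul_apply, ha τ hτ v, hb τ hτ v, map_mul]
  add_mem' {a b} ha hb τ hτ v := by
    rw [Pi.add_apply, Pi.add_apply, ha τ hτ v, hb τ hτ v, map_add]
  algebraMap_mem' r τ hτ v := by
    rw [Pi.algebraMap_apply, Pi.algebraMap_apply]
    exact (r.2.2 τ hτ).symm

theorem mem_equivSubZ {f : V → Qb} :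
    f ∈ equivSubZ ℓ ζ act ↔ ∀ τ ∈ GamZ ℓ ζ, ∀ v, f (act τ v) = τ (f v) := Iff.rfl

end Equiv

section Sink

variable (p : ℕ) [NeZero p] (k : ℕ)
variable {ζ : Qb} {m : ℕ} (hζ : ζ ^ m = 1) (hm : ¬ ℓ ∣ m)
include hζ hm

/-- **The GEOMETRY-FACING SINK of MOONSHOT S19.** -/
theorem S19_of_chart
    (hfinV : Finite ↥(Submodule.torsionBy ℤ (JZero p) ((ℓ : ℤ) ^ k)))
    {Γ ι : Type*} [AddCommGroup Γ] [Finite Γ] [Finite ι]
    (π : ↥(Submodule.torsionBy ℤ (JZero p) ((ℓ : ℤ) ^ k)) →+ Γ)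
    (ξ : ↥(Submodule.torsionBy ℤ (JZero p) ((ℓ : ℤ) ^ k)) → ι → Qb)
    (hξP : ∀ v i, ξ v i ∈ padicPlace ℓ)
    (hinj : ∀ v w, π v = π w → ξ v = ξ w → v = w)
    (hπeq : ∀ τ ∈ GamZ ℓ ζ, ∀ v, π (torsAct p ℓ k τ v) = π v)
    (hξeq : ∀ τ ∈ GamZ ℓ ζ, ∀ v i, ξ (torsAct p ℓ k τ v) i = τ (ξ v i))
    (hP : ∀ (n : ℕ) (γ γ' : Γ) (i : ι), ∃ P : MvPolynomial (ι ⊕ ι) (LamZ ℓ ζ),
      ∀ v v', π v = γ → π v' = γ' → ∃ b ∈ padicPlace ℓ,
        ξ (v + v') i - aeval (Sum.elim (ξ v) (ξ v')) P = (ℓ : Qb) ^ n * b) :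
    ∃ (H : Type) (_ : CommRing H) (_ : HopfAlgebra (GaloisRep.ratLocalizedAt ℓ) H),
      Module.Finite (GaloisRep.ratLocalizedAt ℓ) H ∧ Module.Flat (GaloisRep.ratLocalizedAt ℓ) H ∧
      Coalgebra.IsCocomm (GaloisRep.ratLocalizedAt ℓ) H ∧
      ∃ e : WithConv (H →ₐ[GaloisRep.ratLocalizedAt ℓ] AlgebraicClosure ℚ) ≃
          ↥(Submodule.torsionBy ℤ (JZero p) ((ℓ : ℤ) ^ k)),
        (∀ f g, e (f * g) = e f + e g) ∧
        ∀ (σ : AlgebraicClosure ℚ ≃ₐ[ℚ] AlgebraicClosure ℚ)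
          (f g : WithConv (H →ₐ[GaloisRep.ratLocalizedAt ℓ] AlgebraicClosure ℚ)),
          (∀ h : H, g h = σ (f h)) → ((e g : JZero p)) = σ • (e f : JZero p) := by
  haveI := hfinV
  haveI := isNoetherianRing_LamZ hζ hm
  -- the chart lemma
  obtain ⟨hΔ, hfg⟩ := chartAlg_isDeltaStable_of_isIntegral (W := LamZ ℓ ζ) (KZ ℓ ζ)
    (natCast_mem_jacobson_LamZ ℓ ζ) (natCast_ne_zero_LamZ ℓ ζ) π ξ
    (fun v i => isIntegral_LamZ_of_mem_padicPlace ℓ ζ (hξP v i)) (by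
      intro n γ γ' i
      obtain ⟨P, hPP⟩ := hP n γ γ' i
      refine ⟨P, fun v v' hv hv' => ?_⟩
      obtain ⟨b, hb, hbe⟩ := hPP v v' hv hv'
      refine ⟨b, isIntegral_LamZ_of_mem_padicPlace ℓ ζ hb, ?_⟩
      rw [hbe, Algebra.smul_def, map_pow, map_natCast])
  -- equivariance
  have hle : chartAlg (LamZ ℓ ζ) π ξ ≤ equivSubZ ℓ ζ (torsAct p ℓ k) := by
    refine Algebra.adjoin_le ?_
    rintro f (⟨γ, rfl⟩ | ⟨i, rfl⟩) τ hτ v
    · by_cases h : π v = γ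
      · rw [fibreIdem_apply_of_eq ((hπeq τ hτ v).trans h), fibreIdem_apply_of_eq h, map_one]
      · rw [fibreIdem_apply_of_ne (fun h' => h ((hπeq τ hτ v).symm.trans h')),
          fibreIdem_apply_of_ne h, map_zero]
    · exact hξeq τ hτ v i
  exact S19_of_LamZ_order p k hζ hm hfinV (chartAlg (LamZ ℓ ζ) π ξ) hfg
    (fun τ hτ f hf v => hle hf τ hτ v) (chartAlg_separates π ξ hinj) hΔ

end Sink

end Fermat.Agent.FF2.Base
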